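import Fermat.Agent.Ribet.H729.GluePCalc
import Fermat.Agent.Ribet.H495.AlgPSpec
import Fermat.Agent.Ribet.H552.ASConst
import Fermat.Agent.A2.Alg.H729.Glue
import Fermat.Agent.A2.Alg.H729.CompVal

/-!
# RIBET wall-p / S33, leaf GLUE-p: the BRIDGE (helper729)

`GluePLeaf` (frozen in `Ribet/H495/AlgPSpec.lean`, sub-architect helper495) is reduced to the
ABSTRACT wild gluing core, instantiated at the canonical Gauss ring `V := A2.H729.gaussO`:

* `exists_gaussO_of_locOne` (**deep bridge**): `h ∈ 1 + r B_{p₁}` and `h ∈ 1 + r B_{p₂}`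
  (any `r ∈ R`) imply `h ∈ 1 + r · gaussO`.
* `deepOne_of_locallyFactoredP` : a locally factored `v` lies in `1 + λ^p w B_{p_i}`, `i = 1, 2`.
* `GlueCorePStatement` : the core in the shape of `A2.H348.exists_pow_eq_of_local_factorisation`
  (`m := p`, depth `λ w` for the local roots, `λ^p w` for the class), with `V := gaussO`.
* `gluePLeaf_of_core : GlueCorePStatement → GluePLeaf` (the hypothesis `hconst` of the core is
  discharged by `H552.hconstP_of_henselian` on `compVal = (Bf)_{p₁}`).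
-/

set_option autoImplicit false
set_option linter.unusedSectionVars false
set_option linter.style.haveILetI false
set_option linter.unusedVariables false

namespace Fermat.Agent.Ribet.H729

open Fermat.Agent.A2 Fermat.Agent.A2.Alg Fermat.Agent.A2.H729
open Fermat.Agent.S18.H138 (chart baseField)
open Fermat.Agent.Ribet.H495.AlgP
open Polynomial

section Deep

variable {R : Type*} [CommRing R] [IsDomain R] {F : Type*} [Field F] [Algebra R F]

/-- **Deep bridge.**  `h ∈ 1 + r B_{p₁}` and `h ∈ 1 + r B_{p₂}` imply `h ∈ 1 + r · gaussO`. -/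
theorem exists_gaussO_of_locOne {w : R} (hw : Prime w) {x : F}
    (hx : Transcendental R x) {p₁ p₂ : Ideal (chart R ({x} : Set F))}
    (hp₁ : p₁.IsPrime) (hp₂ : p₂.IsPrime)
    (hinf : p₁ ⊓ p₂ = Ideal.span {algebraMap R (chart R ({x} : Set F)) w})
    (h₁₂ : ¬ p₁ ≤ p₂) (h₂₁ : ¬ p₂ ≤ p₁) (r : R) {h : F}
    (hone₁ : LocOne (chart R ({x} : Set F)) p₁
      (Ideal.span {algebraMap R (chart R ({x} : Set F)) r}) h)
    (hone₂ : LocOne (chart R ({x} : Set F)) p₂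
      (Ideal.span {algebraMap R (chart R ({x} : Set F)) r}) h) :
    OneR (gaussO hw x) r h := by
  obtain ⟨a₁, b₁, hb₁, hab₁, e₁⟩ := hone₁
  obtain ⟨a₂, b₂, hb₂, hab₂, e₂⟩ := hone₂
  obtain ⟨c₂, hc₂p₁, hc₂p₂⟩ := SetLike.not_le_iff_exists.1 h₁₂
  obtain ⟨c₁, hc₁p₂, hc₁p₁⟩ := SetLike.not_le_iff_exists.1 h₂₁
  -- `c₁ ∈ p₂ ∖ p₁`, `c₂ ∈ p₁ ∖ p₂`
  set b := b₁ * c₁ + b₂ * c₂ with hb
  set a := a₁ * c₁ + a₂ * c₂ with ha
  have hbp₁ : b ∉ p₁ := by
    intro hmem
    have h1 : b₂ * c₂ ∈ p₁ := p₁.mul_mem_left _ hc₂p₁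
    have h2 : b₁ * c₁ ∈ p₁ := by
      have := p₁.sub_mem hmem h1
      rwa [hb, add_sub_cancel_right] at this
    rcases hp₁.mem_or_mem h2 with h3 | h3
    · exact hb₁ h3
    · exact hc₁p₁ h3
  have hbp₂ : b ∉ p₂ := by
    intro hmem
    have h1 : b₁ * c₁ ∈ p₂ := p₂.mul_mem_left _ hc₁p₂
    have h2 : b₂ * c₂ ∈ p₂ := by
      have := p₂.sub_mem hmem h1
      rwa [hb, add_sub_cancel_left] at this
    rcases hp₂.mem_or_mem h2 with h3 | h3
    · exact hb₂ h3
    · exact hc₂p₂ h3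
  have hab : a - b ∈ Ideal.span {algebraMap R (chart R ({x} : Set F)) r} := by
    have e : a - b = (a₁ - b₁) * c₁ + (a₂ - b₂) * c₂ := by rw [ha, hb]; ring
    rw [e]
    exact Ideal.add_mem _ (Ideal.mul_mem_right _ _ hab₁) (Ideal.mul_mem_right _ _ hab₂)
  obtain ⟨d, hd⟩ := Ideal.mem_span_singleton'.1 hab
  have hbinv := inv_mem_gaussO_of_not_mem hw hx hp₁ hp₂ hinf hbp₁ hbp₂
  have hb0 : (b : F) ≠ 0 := by
    intro h0
    apply hbp₁
    have : b = 0 := Subtype.ext h0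
    rw [this]
    exact p₁.zero_mem
  have ehb : h * (b : F) = (a : F) := by
    have : (b : F) = (b₁ : F) * c₁ + (b₂ : F) * c₂ := by rw [hb]; rfl
    rw [this]
    have : (a : F) = (a₁ : F) * c₁ + (a₂ : F) * c₂ := by rw [ha]; rfl
    rw [this, ← e₁, ← e₂]
    ring
  have hdF : (a : F) - (b : F) = (d : F) * algebraMap R F r := by
    have := congrArg (fun t : chart R ({x} : Set F) => (t : F)) hd
    exact this.symm
  refine ⟨(d : F) * (b : F)⁻¹,
    Subalgebra.mul_mem _ (chart_fin_le_gaussO hw x d.2) hbinv, ?_⟩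
  have : h = 1 + ((a : F) - (b : F)) * (b : F)⁻¹ := by
    rw [← ehb]; field_simp; ring
  rw [this, hdF]
  ring

end Deep

section LocSub

variable {R F : Type*} [CommRing R] [Field F] [Algebra R F]

/-- The localisation `B_n ⊆ F` (own copy of the carrier; `n` prime). -/
def locAt (B : Subalgebra R F) (n : Ideal B) (hn : n.IsPrime) : Subalgebra R F where
  carrier := {f | ∃ a b : B, b ∉ n ∧ f * (b : F) = (a : F)}
  mul_mem' := by
    rintro f g ⟨a, b, hb, hab⟩ ⟨a', b', hb', hab'⟩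
    refine ⟨a * a', b * b', fun h => ?_, ?_⟩
    · rcases hn.mem_or_mem h with h | h
      · exact hb h
      · exact hb' h
    · push_cast
      rw [← hab, ← hab']
      ring
  add_mem' := by
    rintro f g ⟨a, b, hb, hab⟩ ⟨a', b', hb', hab'⟩
    refine ⟨a * b' + a' * b, b * b', fun h => ?_, ?_⟩
    · rcases hn.mem_or_mem h with h | h
      · exact hb h
      · exact hb' h
    · push_cast
      rw [← hab, ← hab']
      ring
  algebraMap_mem' r :=
    ⟨algebraMap R B r, 1, fun h => hn.ne_top ((Ideal.eq_top_iff_one n).2 h), by simp⟩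

theorem coe_ne_zero_of_notMem729 {B : Subalgebra R F} {n : Ideal B} {b : B} (hb : b ∉ n) :
    (b : F) ≠ 0 := by
  intro h
  apply hb
  have : b = 0 := Subtype.ext h
  rw [this]
  exact n.zero_mem

/-- `LocOne B n (r) u ↔ u ∈ 1 + r · B_n`. -/
theorem locOne_iff_oneR {B : Subalgebra R F} {n : Ideal B} (hn : n.IsPrime) {r : R} {u : F} :
    LocOne B n (Ideal.span {algebraMap R B r}) u ↔ OneR (locAt B n hn) r u := by
  constructor
  · rintro ⟨a, b, hb, hab, e⟩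
    obtain ⟨d, hd⟩ := Ideal.mem_span_singleton'.1 hab
    have hb0 := coe_ne_zero_of_notMem729 hb
    have hdF : (a : F) - (b : F) = (d : F) * algebraMap R F r :=
      (congrArg (fun t : B => (t : F)) hd).symm
    refine ⟨(d : F) * (b : F)⁻¹, ⟨d, b, hb, by field_simp⟩, ?_⟩
    have : u = 1 + ((a : F) - (b : F)) * (b : F)⁻¹ := by
      rw [← e]; field_simp; ring
    rw [this, hdF]
    ring
  · rintro ⟨t, ⟨a, b, hb, e⟩, rfl⟩
    refine ⟨b + algebraMap R B r * a, b, hb, ?_, ?_⟩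
    · rw [add_sub_cancel_left]
      exact Ideal.mul_mem_right _ _ (Ideal.mem_span_singleton_self _)
    · have h1 : ((b + algebraMap R B r * a : B) : F) = (b : F) + algebraMap R F r * (a : F) := rfl
      rw [h1, ← e]
      ring

/-- `w ∈ n` lies in the radical of `B_n`. -/
theorem locAt_rad {B : Subalgebra R F} {n : Ideal B} (hn : n.IsPrime) {w : R}
    (hwn : algebraMap R B w ∈ n) :
    ∀ t ∈ locAt B n hn, 1 + algebraMap R F w * t ≠ 0 ∧
      (1 + algebraMap R F w * t)⁻¹ ∈ locAt B n hn := by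
  rintro t ⟨a, b, hb, e⟩
  have hb0 := coe_ne_zero_of_notMem729 hb
  have hc : b + algebraMap R B w * a ∉ n := by
    intro h
    apply hb
    have : b = (b + algebraMap R B w * a) - algebraMap R B w * a := by ring
    rw [this]
    exact n.sub_mem h (n.mul_mem_right _ hwn)
  have hc0 := coe_ne_zero_of_notMem729 hc
  have hcF : ((b + algebraMap R B w * a : B) : F) = (b : F) + algebraMap R F w * (a : F) := rfl
  have hval : 1 + algebraMap R F w * t = ((b : F) + algebraMap R F w * (a : F)) * (b : F)⁻¹ := by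
    rw [← e]; field_simp
  rw [hcF] at hc0
  refine ⟨by rw [hval]; exact mul_ne_zero hc0 (inv_ne_zero hb0), ?_⟩
  refine ⟨b, b + algebraMap R B w * a, hc, ?_⟩
  rw [hval, hcF]
  field_simp

/-- Weakening the point: `B_n ⊆ B_p` for `p ≤ n`. -/
theorem locAt_mono {B : Subalgebra R F} {n p : Ideal B} (hn : n.IsPrime) (hp : p.IsPrime)
    (hpn : p ≤ n) : locAt B n hn ≤ locAt B p hp := by
  rintro f ⟨a, b, hb, e⟩
  exact ⟨a, b, fun h => hb (hpn h), e⟩

end LocSub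

section Deep2

variable {R F : Type*} [CommRing R] [IsDomain R] [Field F] [Algebra R F]

/-- A locally factored `v` is deeply `≡ 1` on a component `𝔭` (`w ∈ 𝔭`): for ONE closed point
`n ⊇ 𝔭` with a local factorisation. -/
theorem oneR_of_localFactorP {w : R} {B : Subalgebra R F} (c : SSChart w B) {p : ℕ} (hp : 0 < p)
    {ζ : R} (hζ : IsPrimitiveRoot ζ p) (ρ : R) (hlam : ζ - 1 = w * ρ) {v : F}
    (𝔭 : Ideal B) (h𝔭 : 𝔭.IsPrime) (hw𝔭 : algebraMap R B w ∈ 𝔭)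
    (hsel : ∀ h : F, LocOneR B c.p₁ ((ζ - 1) * w) h → LocOneR B c.p₂ ((ζ - 1) * w) h →
      LocOneR B 𝔭 ((ζ - 1) * w) h)
    (hf : LocallyFactoredP B c p (ζ - 1) v) :
    LocOneR B 𝔭 ((ζ - 1) ^ p * w) v := by
  obtain ⟨n, hn, h𝔭n⟩ := Ideal.exists_le_maximal 𝔭 h𝔭.ne_top
  obtain ⟨h, hh0, hloc, h1, h2⟩ := hf n hn (h𝔭n hw𝔭)
  have hrad := locAt_rad h𝔭 hw𝔭
  -- everything in `B_𝔭`
  have hA : OneR (locAt B 𝔭 h𝔭) ((ζ - 1) ^ p * w) (v * h ^ p) := by
    obtain ⟨t, ht, e⟩ := (locOne_iff_oneR hn.isPrime).1 hloc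
    exact ⟨t, locAt_mono hn.isPrime h𝔭 h𝔭n ht, e⟩
  have hh : OneR (locAt B 𝔭 h𝔭) ((ζ - 1) * w) h := (locOne_iff_oneR h𝔭).1 (hsel h h1 h2)
  have hB : OneR (locAt B 𝔭 h𝔭) ((ζ - 1) ^ p * w) (h ^ p) := hh.pow_deep hp hζ w
  have hC := (hB.inv hrad ((ζ - 1) ^ p) (by ring)).2
  have hD := hA.mul hC
  rw [mul_assoc, mul_inv_cancel₀ (pow_ne_zero _ hh0), mul_one] at hD
  exact (locOne_iff_oneR h𝔭).2 hD

/-- **A locally factored class is deeply split** (`DeepOne`). -/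
theorem deepOne_of_locallyFactoredP {w : R} {B : Subalgebra R F} (c : SSChart w B) {p : ℕ}
    (hp : 0 < p) {ζ : R} (hζ : IsPrimitiveRoot ζ p) (ρ : R) (hlam : ζ - 1 = w * ρ) {v : F}
    (hf : LocallyFactoredP B c p (ζ - 1) v) : DeepOne B c p (ζ - 1) v := by
  have hw₁₂ : algebraMap R B w ∈ c.p₁ ⊓ c.p₂ := by
    rw [c.inf_eq]; exact Ideal.mem_span_singleton_self _
  exact ⟨oneR_of_localFactorP c hp hζ ρ hlam c.p₁ c.prime₁ hw₁₂.1 (fun _ h1 _ => h1) hf,
    oneR_of_localFactorP c hp hζ ρ hlam c.p₂ c.prime₂ hw₁₂.2 (fun _ _ h2 => h2) hf⟩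

end Deep2

section Core

/-- **The abstract GLUE-p core, at `V := gaussO`** (shape of
`A2.H348.exists_pow_eq_of_local_factorisation` / `A2.H729.exists_pow_eq_gaussO` with `m := p`):
`v ∈ 1 + λ^p w V`; at every closed point of the special fibre of both charts
`v = h ^ p ε`, `h ∈ 1 + λ w V`, `ε ∈ 1 + λ^p w B_𝔪`; constants do not grow in the Kummer algebra
`F[X]/(X ^ p - v)`.  Conclusion: `v` is a `p`-th power. -/
def GlueCorePStatement : Prop :=
  ∀ {R F : Type} [CommRing R] [IsDomain R] [IsDiscreteValuationRing R]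
    [HenselianLocalRing R] [IsAlgClosed (IsLocalRing.ResidueField R)]
    [Field F] [Algebra R F] [CharZero F]
    (_ : Function.Injective (algebraMap R F))
    (x : F) (hx : Transcendental R x) [FiniteDimensional (baseField R x) F]
    (w : R) (hw : Prime w) (p : ℕ) (_ : p.Prime) (_ : p ≠ 2)
    (_ : (p : R) ∈ IsLocalRing.maximalIdeal R)
    (ζ : R) (_ : IsPrimitiveRoot ζ p) (ρ : R) (_ : ζ - 1 = w * ρ)
    (ε : Rˣ) (_ : (p : R) = ε * (ζ - 1) ^ (p - 1))
    (v : F)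
    (_ : ∃ t ∈ gaussO hw x, v = 1 + algebraMap R F ((ζ - 1) ^ p * w) * t)
    (_ : ∀ 𝔪 : Ideal (chart R ({x} : Set F)), 𝔪.IsMaximal →
      algebraMap R (chart R ({x} : Set F)) w ∈ 𝔪 →
      ∃ h : F, (∃ t ∈ gaussO hw x, h = 1 + algebraMap R F ((ζ - 1) * w) * t) ∧
        ∃ s a : chart R ({x} : Set F), s ∉ 𝔪 ∧
          v * (s : F) = h ^ p * ((s : F) + algebraMap R F ((ζ - 1) ^ p * w) * (a : F)))
    (_ : ∀ 𝔪 : Ideal (chart R ({x⁻¹} : Set F)), 𝔪.IsMaximal →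
      algebraMap R (chart R ({x⁻¹} : Set F)) w ∈ 𝔪 →
      ∃ h : F, (∃ t ∈ gaussO hw x, h = 1 + algebraMap R F ((ζ - 1) * w) * t) ∧
        ∃ s a : chart R ({x⁻¹} : Set F), s ∉ 𝔪 ∧
          v * (s : F) = h ^ p * ((s : F) + algebraMap R F ((ζ - 1) ^ p * w) * (a : F)))
    (_ : ∀ 𝔫 : Ideal (AdjoinRoot (X ^ p - C v)), 𝔫.IsMaximal →
      ∀ y : AdjoinRoot (X ^ p - C v) ⧸ 𝔫, IsIntegral R y →
        y ∈ Set.range (algebraMap R (AdjoinRoot (X ^ p - C v) ⧸ 𝔫))),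
    ∃ y : F, y ^ p = v

end Core

section Bridge

variable {R E F : Type*} [CommRing R] [IsDomain R] [IsDiscreteValuationRing R]
  [HenselianLocalRing R] [IsAlgClosed (IsLocalRing.ResidueField R)]
  [Field E] [CharZero E] [Algebra R E] [IsFractionRing R E]
  [Field F] [Algebra E F] [Algebra R F] [IsScalarTower R E F]

/-- Local factorisations on one chart, in the form of the core. -/
theorem locP_of_locallyFactoredP {w : R} (hw : Prime w) {x : F} (hx : Transcendental R x)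
    (c : SSChart w (chart R ({x} : Set F))) (hc : Incomparable c) {p : ℕ} {ζ : R} (ρ : R)
    (hlam : ζ - 1 = w * ρ) {v : F}
    (hf : LocallyFactoredP (chart R ({x} : Set F)) c p (ζ - 1) v) :
    ∀ 𝔪 : Ideal (chart R ({x} : Set F)), 𝔪.IsMaximal →
      algebraMap R (chart R ({x} : Set F)) w ∈ 𝔪 →
      ∃ h : F, (∃ t ∈ gaussO hw x, h = 1 + algebraMap R F ((ζ - 1) * w) * t) ∧
        ∃ s a : chart R ({x} : Set F), s ∉ 𝔪 ∧
          v * (s : F) = h ^ p * ((s : F) + algebraMap R F ((ζ - 1) ^ p * w) * (a : F)) := by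
  intro 𝔪 h𝔪 hw𝔪
  obtain ⟨h, hh0, ⟨a, b, hb, hab, e⟩, h1, h2⟩ := hf 𝔪 h𝔪 hw𝔪
  have hO : OneR (gaussO hw x) ((ζ - 1) * w) h :=
    exists_gaussO_of_locOne hw hx c.prime₁ c.prime₂ c.inf_eq hc.1 hc.2 _ h1 h2
  have hrad : ∀ t ∈ gaussO hw x, 1 + algebraMap R F w * t ≠ 0 ∧
      (1 + algebraMap R F w * t)⁻¹ ∈ gaussO hw x := fun t ht => one_add_unit_gaussO hw hx ht
  obtain ⟨-, hinv⟩ := hO.inv hrad ((ζ - 1)) (by ring)
  obtain ⟨d, hd⟩ := Ideal.mem_span_singleton'.1 hab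
  refine ⟨h⁻¹, hinv, b, d, hb, ?_⟩
  have hdF : (d : F) * algebraMap R F ((ζ - 1) ^ p * w) = (a : F) - (b : F) :=
    congrArg (fun t : chart R ({x} : Set F) => (t : F)) hd
  have e1 : (b : F) + algebraMap R F ((ζ - 1) ^ p * w) * (d : F) = (a : F) := by
    rw [mul_comm, hdF]; ring
  rw [e1, ← e, inv_pow]
  field_simp

/-- **BRIDGE: `GluePLeaf` from the abstract core.** -/
theorem gluePLeaf_of_core (hcore : GlueCorePStatement) : GluePLeaf := by
  intro R E F _ _ _ _ _ _ _ _ _ _ _ _ _ p hp hp2 hpR ζ hζ w x Bf Bi hBf hBi cf ci hcf hci v hv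
    hdiv hf hi
  obtain rfl := H34.chart_eq x Bf hBf.hB
  obtain rfl := H34.chart_eq x⁻¹ Bi hBi.hB
  haveI : CharZero F := H34.charZero_of_field (E := E)
  haveI := H34.finiteDimensional_baseField (R := R) x hBf.hfin
  have hinjR : Function.Injective (algebraMap R F) := H34.algebraMap_RF_injective E
  have hx : Transcendental R x := H34.transcendental_of_field hBf.hx
  have hx0 : x ≠ 0 := Fermat.Agent.S18.H138.ne_zero_of_transcendental hx
  have hxi : Transcendental R x⁻¹ := Fermat.Agent.S18.H138.transcendental_inv hx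
  have hw : Prime w := hBf.hw.prime
  have hw0 : algebraMap R F w ≠ 0 := fun h => hw.ne_zero (hinjR (by rw [h, map_zero]))
  -- cyclotomic data
  obtain ⟨ρ, hlam⟩ : ∃ ρ, ζ - 1 = w * ρ := by
    have hmem := zeta_sub_one_mem_maximalIdeal hp hpR hζ.pow_eq_one
    rw [hBf.hw.maximalIdeal_eq, Ideal.mem_span_singleton'] at hmem
    obtain ⟨a, ha⟩ := hmem
    exact ⟨a, by rw [← ha, mul_comm]⟩
  obtain ⟨ε, hε⟩ := exists_unit_natCast_eq hp hpR hζ
  -- `v` is deeply split on both charts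
  have hdeep := deepOne_of_locallyFactoredP cf hp.pos hζ ρ hlam hf
  have hv1 : OneR (gaussO hw x) ((ζ - 1) ^ p * w) v :=
    exists_gaussO_of_locOne hw hx cf.prime₁ cf.prime₂ cf.inf_eq hcf.1 hcf.2 _ hdeep.1 hdeep.2
  have hloc_fin := locP_of_locallyFactoredP hw hx cf hcf ρ hlam hf
  have hloc_inf := locP_of_locallyFactoredP hw hxi ci hci ρ hlam hi
  rw [gaussO_inv hw hx0] at hloc_inf
  -- constants
  obtain ⟨hN, -, hFr⟩ := H34.chart_instances' w x _ hBf
  haveI := hN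
  haveI := hFr
  have hconst : ∀ 𝔫 : Ideal (AdjoinRoot (X ^ p - C v)), 𝔫.IsMaximal →
      ∀ y : AdjoinRoot (X ^ p - C v) ⧸ 𝔫, IsIntegral R y →
        y ∈ Set.range (algebraMap R (AdjoinRoot (X ^ p - C v) ⧸ 𝔫)) := by
    obtain ⟨t, ⟨a, b, hb, e⟩, hvt⟩ := (locOne_iff_oneR cf.prime₁).1 hdeep.1
    exact Fermat.Agent.Ribet.H552.hconstP_of_henselian E w hBf.hw
      (Fermat.Agent.A2.Alg.H729.compVal w _ cf.p₁ cf.p₂ cf.prime₁ cf.inf_eq hcf.2 hw0)
      (Fermat.Agent.A2.Alg.H729.algebraMap_mem_compVal w _ cf.p₁ cf.p₂ cf.prime₁ cf.inf_eq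
        hcf.2 hw0)
      (Fermat.Agent.A2.Alg.H729.inv_not_mem_compVal w _ cf.p₁ cf.p₂ cf.prime₁ cf.inf_eq
        hcf.2 hw0)
      (Fermat.Agent.A2.Alg.H729.mul_inv_mem_compVal w _ cf.p₁ cf.p₂ cf.prime₁ cf.inf_eq
        hcf.2 hw0)
      (Fermat.Agent.A2.Alg.H729.exists_pow_mul_mem_compVal w _ cf.p₁ cf.p₂ cf.prime₁ cf.inf_eq
        hcf.2 hw0)
      p hp ζ hζ t ⟨a, b, hb, e⟩ v hvt
  obtain ⟨y, hy⟩ := hcore hinjR x hx w hw p hp hp2 hpR ζ hζ ρ hlam ε hε v hv1 hloc_fin hloc_inf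
    hconst
  refine ⟨y, ?_, hy.symm⟩
  rintro rfl
  rw [zero_pow hp.ne_zero] at hy
  exact hv hy.symm

end Bridge

end Fermat.Agent.Ribet.H729
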