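import Mathlib

/-!
# RIBET wall-p / S33, leaf GLUE-p: the calculus of `1 + r · O` (helper729), Mathlib only

`O ⊆ F` a subalgebra over `R`, `w ∈ R` in the "Jacobson radical" of `O`
(`hrad : t ∈ O → 1 + w t ≠ 0 ∧ (1 + w t)⁻¹ ∈ O`).  `OneR O r z` means `z ∈ 1 + r · O`.

* `OneR.mul`, `OneR.inv` (for `w ∣ r`), `OneR.mono`;
* `OneR.pow_deep` : `ζ` a primitive `p`-th root of unity of `R`, `λ = ζ - 1`:
  `h ∈ 1 + λ w O → h ^ p ∈ 1 + λ ^ p w O`  (from `X ^ p - 1 = ∏ (X - ζ ^ i)`, no binomials);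
* `exists_unit_natCast_eq` : in a local domain `R` with `p ∈ 𝔪`: `p = ε · (ζ - 1) ^ (p - 1)`,
  `ε ∈ Rˣ`.
-/

set_option autoImplicit false
set_option linter.unusedSectionVars false
set_option linter.style.haveILetI false

namespace Fermat.Agent.Ribet.H729

section Calc

variable {R F : Type*} [CommRing R] [Field F] [Algebra R F]

/-- `z ∈ 1 + r · O`. -/
def OneR (O : Subalgebra R F) (r : R) (z : F) : Prop :=
  ∃ t ∈ O, z = 1 + algebraMap R F r * t

theorem OneR.one (O : Subalgebra R F) (r : R) : OneR O r 1 :=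
  ⟨0, O.zero_mem, by simp⟩

theorem OneR.mul {O : Subalgebra R F} {r : R} {y z : F} (hy : OneR O r y) (hz : OneR O r z) :
    OneR O r (y * z) := by
  obtain ⟨s, hs, rfl⟩ := hy
  obtain ⟨t, ht, rfl⟩ := hz
  refine ⟨s + t + algebraMap R F r * (s * t), ?_, by ring⟩
  exact O.add_mem (O.add_mem hs ht) (O.mul_mem (O.algebraMap_mem r) (O.mul_mem hs ht))

theorem OneR.pow {O : Subalgebra R F} {r : R} {z : F} (hz : OneR O r z) (n : ℕ) :
    OneR O r (z ^ n) := by
  induction n with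
  | zero => rw [pow_zero]; exact OneR.one O r
  | succ n ih => rw [pow_succ]; exact ih.mul hz

/-- `1 + r r' O ⊆ 1 + r O`. -/
theorem OneR.mono {O : Subalgebra R F} {r : R} (r' : R) {z : F} (hz : OneR O (r * r') z) :
    OneR O r z := by
  obtain ⟨t, ht, rfl⟩ := hz
  exact ⟨algebraMap R F r' * t, O.mul_mem (O.algebraMap_mem r') ht, by rw [map_mul]; ring⟩

theorem OneR.mono' {O : Subalgebra R F} {r : R} (r' : R) {z : F} (hz : OneR O (r' * r) z) :
    OneR O r z := by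
  rw [mul_comm] at hz
  exact hz.mono r'

theorem OneR.mem {O : Subalgebra R F} {r : R} {z : F} (hz : OneR O r z) : z ∈ O := by
  obtain ⟨t, ht, rfl⟩ := hz
  exact O.add_mem O.one_mem (O.mul_mem (O.algebraMap_mem r) ht)

/-- Inverses in `1 + r O`, `w ∣ r`, `w` in the radical of `O`. -/
theorem OneR.inv {O : Subalgebra R F} {w : R}
    (hrad : ∀ t ∈ O, 1 + algebraMap R F w * t ≠ 0 ∧ (1 + algebraMap R F w * t)⁻¹ ∈ O)
    {r : R} (ρ : R) (hr : r = w * ρ) {z : F} (hz : OneR O r z) :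
    z ≠ 0 ∧ OneR O r z⁻¹ := by
  obtain ⟨t, ht, rfl⟩ := hz
  have e : 1 + algebraMap R F r * t = 1 + algebraMap R F w * (algebraMap R F ρ * t) := by
    rw [hr, map_mul]; ring
  obtain ⟨hne, hinv⟩ := hrad (algebraMap R F ρ * t) (O.mul_mem (O.algebraMap_mem ρ) ht)
  rw [← e] at hne hinv
  refine ⟨hne, -(t * (1 + algebraMap R F r * t)⁻¹), O.neg_mem (O.mul_mem ht hinv), ?_⟩
  field_simp
  ring

/-- **Deepening.**  `h ∈ 1 + λ w O → h ^ p ∈ 1 + λ ^ p w O`, `λ = ζ - 1`, `ζ` a primitive `p`-th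
root of unity of the domain `R`. -/
theorem OneR.pow_deep [IsDomain R] {O : Subalgebra R F} {p : ℕ} (hp : 0 < p) {ζ : R}
    (hζ : IsPrimitiveRoot ζ p) (w : R) {h : F} (hh : OneR O ((ζ - 1) * w) h) :
    OneR O ((ζ - 1) ^ p * w) (h ^ p) := by
  obtain ⟨t, ht, rfl⟩ := hh
  set z : F := 1 + algebraMap R F ((ζ - 1) * w) * t with hz
  -- the polynomial identity, evaluated at `z`
  have hpoly := X_pow_sub_C_eq_prod hζ hp (one_pow p)
  have hev : z ^ p - 1 = ∏ i ∈ Finset.range p, (z - algebraMap R F (ζ ^ i)) := by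
    have h1 := congrArg (fun P : Polynomial R => Polynomial.aeval z P) hpoly
    simp only [map_sub, map_pow, Polynomial.aeval_X, Polynomial.aeval_C, map_one, mul_one,
      map_prod] at h1
    simpa using h1
  -- each factor is `λ * (w t - U_i)`
  set U : ℕ → R := fun i => ∑ j ∈ Finset.range i, ζ ^ j with hU
  have hfac : ∀ i, z - algebraMap R F (ζ ^ i) =
      algebraMap R F (ζ - 1) * (algebraMap R F w * t - algebraMap R F (U i)) := by
    intro i
    have hg : ζ ^ i - 1 = (ζ - 1) * U i := (mul_geom_sum ζ i).symm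
    have hg' : algebraMap R F (ζ ^ i) = 1 + algebraMap R F (ζ - 1) * algebraMap R F (U i) := by
      rw [← map_mul, ← hg, map_sub, map_one]; ring
    rw [hz, hg', map_mul]
    ring
  obtain ⟨p', rfl⟩ : ∃ p', p = p' + 1 := ⟨p - 1, by omega⟩
  have hprod : ∏ i ∈ Finset.range (p' + 1), (z - algebraMap R F (ζ ^ i)) =
      algebraMap R F (ζ - 1) ^ (p' + 1) *
        ((∏ i ∈ Finset.range p', (algebraMap R F w * t - algebraMap R F (U (i + 1)))) *
          (algebraMap R F w * t)) := by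
    rw [Finset.prod_congr rfl (fun i _ => hfac i), Finset.prod_mul_distrib, Finset.prod_const,
      Finset.card_range, Finset.prod_range_succ']
    have hU0 : U 0 = 0 := by simp [hU]
    rw [hU0, map_zero, sub_zero]
  refine ⟨(∏ i ∈ Finset.range p', (algebraMap R F w * t - algebraMap R F (U (i + 1)))) * t,
    O.mul_mem (Subalgebra.prod_mem _ fun i _ =>
      O.sub_mem (O.mul_mem (O.algebraMap_mem w) ht) (O.algebraMap_mem _)) ht, ?_⟩
  have : z ^ (p' + 1) = 1 + (z ^ (p' + 1) - 1) := by ring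
  rw [this, hev, hprod, map_mul, map_pow]
  ring

end Calc

section Cyclo

variable {R : Type*} [CommRing R] [IsDomain R] [IsLocalRing R]

/-- `ζ - 1 ∈ 𝔪` when the residue characteristic is `p`. -/
theorem zeta_sub_one_mem_maximalIdeal {p : ℕ} (hp : p.Prime)
    (hpR : (p : R) ∈ IsLocalRing.maximalIdeal R) {ζ : R} (hζ : ζ ^ p = 1) :
    ζ - 1 ∈ IsLocalRing.maximalIdeal R := by
  haveI : Fact p.Prime := ⟨hp⟩
  have h0 : ((p : ℕ) : IsLocalRing.ResidueField R) = 0 := by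
    have := (IsLocalRing.residue_eq_zero_iff (p : R)).2 hpR
    rwa [map_natCast] at this
  haveI : CharP (IsLocalRing.ResidueField R) p := (CharP.charP_iff_prime_eq_zero hp).2 h0
  rw [← IsLocalRing.residue_eq_zero_iff]
  have h1 : (IsLocalRing.residue R (ζ - 1)) ^ p = 0 := by
    rw [map_sub, map_one, sub_pow_char, one_pow, ← map_pow, hζ, map_one, sub_self]
  exact pow_eq_zero_iff (hp.ne_zero) |>.1 h1

/-- `1 + ζ + … + ζ^(j-1)` is a unit for `0 < j < p`. -/
theorem isUnit_geom_sum {p : ℕ} (hp : p.Prime)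
    (hpR : (p : R) ∈ IsLocalRing.maximalIdeal R) {ζ : R} (hζ : ζ ^ p = 1) {j : ℕ}
    (hj0 : 0 < j) (hjp : j < p) : IsUnit (∑ i ∈ Finset.range j, ζ ^ i) := by
  have hlam := zeta_sub_one_mem_maximalIdeal hp hpR hζ
  have h1 : (∑ i ∈ Finset.range j, ζ ^ i) - (j : R) ∈ IsLocalRing.maximalIdeal R := by
    have : (∑ i ∈ Finset.range j, ζ ^ i) - (j : R) = ∑ i ∈ Finset.range j, (ζ ^ i - 1) := by
      rw [Finset.sum_sub_distrib, Finset.sum_const, Finset.card_range, nsmul_eq_mul, mul_one]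
    rw [this]
    refine Ideal.sum_mem _ fun i _ => ?_
    have hi : ζ ^ i - 1 = (ζ - 1) * ∑ k ∈ Finset.range i, ζ ^ k := (mul_geom_sum ζ i).symm
    rw [hi]
    exact Ideal.mul_mem_right _ _ hlam
  have hjR : (j : R) ∉ IsLocalRing.maximalIdeal R := by
    intro hmem
    have hndvd : ¬ p ∣ j := Nat.not_dvd_of_pos_of_lt hj0 hjp
    have hcop : Nat.Coprime j p := ((Nat.Prime.coprime_iff_not_dvd hp).2 hndvd).symm
    obtain ⟨a, b, hab⟩ := Nat.isCoprime_iff_coprime.2 hcop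
    have h1 : ((a * (j : ℤ) + b * (p : ℤ) : ℤ) : R) = 1 := by rw [hab]; simp
    have h2 : (1 : R) ∈ IsLocalRing.maximalIdeal R := by
      rw [← h1]
      push_cast
      exact Ideal.add_mem _ (Ideal.mul_mem_left _ _ hmem) (Ideal.mul_mem_left _ _ hpR)
    exact (IsLocalRing.maximalIdeal.isMaximal R).ne_top ((Ideal.eq_top_iff_one _).2 h2)
  rw [← IsLocalRing.notMem_maximalIdeal]
  intro hmem
  apply hjR
  have : (j : R) = (∑ i ∈ Finset.range j, ζ ^ i) - ((∑ i ∈ Finset.range j, ζ ^ i) - (j : R)) := by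
    ring
  rw [this]
  exact Ideal.sub_mem _ hmem h1

/-- `p = ε · (ζ - 1) ^ (p - 1)` with `ε` a unit. -/
theorem exists_unit_natCast_eq {p : ℕ} (hp : p.Prime)
    (hpR : (p : R) ∈ IsLocalRing.maximalIdeal R) {ζ : R} (hζ : IsPrimitiveRoot ζ p) :
    ∃ ε : Rˣ, (p : R) = ε * (ζ - 1) ^ (p - 1) := by
  obtain ⟨n, rfl⟩ : ∃ n, p = n + 1 := ⟨p - 1, by have := hp.pos; omega⟩
  have hprod := hζ.prod_one_sub_pow_eq_order
  have hfac : ∀ k ∈ Finset.range n, (1 - ζ ^ (k + 1)) =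
      (-(ζ - 1)) * ∑ i ∈ Finset.range (k + 1), ζ ^ i := by
    intro k _
    have := mul_geom_sum ζ (k + 1)
    linear_combination this
  rw [Finset.prod_congr rfl hfac, Finset.prod_mul_distrib, Finset.prod_const,
    Finset.card_range] at hprod
  have hU : IsUnit (∏ k ∈ Finset.range n, ∑ i ∈ Finset.range (k + 1), ζ ^ i) := by
    rw [IsUnit.prod_iff]
    intro k hk
    exact isUnit_geom_sum hp hpR hζ.pow_eq_one (Nat.succ_pos k)
      (by have := Finset.mem_range.1 hk; omega)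
  have hneg : IsUnit ((-1 : R) ^ n) := (isUnit_one.neg).pow n
  obtain ⟨ε, hε⟩ := hneg.mul hU
  refine ⟨ε, ?_⟩
  rw [hε, Nat.add_sub_cancel]
  push_cast
  rw [← hprod, neg_pow]
  ring

end Cyclo

end Fermat.Agent.Ribet.H729
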