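import Fermat.Agent.S35.H433.Approx

/-!
# WALL-q / S2q (FROB-AL) — abstract core, local part (helper729)

`ψ` = a semilinear automorphism of the function field `F` which preserves a chart `B` of a
semistable model, SWAPS its two components, acts on the constants as the `Q`-power map modulo `w`
and fixes the crossing points.  (For the Mazur principle at `q ‖ qM'`: `ψ = w_q ∘ σ`, `σ` a
Frobenius lift at `q`, `w_q` the Atkin–Lehner involution, `Q = q`.)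

`localFactor_swap_of_pureAt` : purity data for `u` at `ψ⁻¹ n` and at `n`, `u ≡ 1` on both
components  ⟹  `LocalFactor B c m (ψ u · u ^ Q) n`.

Mirror of `Fermat/Agent/S35/H433/PhiAsm.lean` (helper433: `φ` PRESERVING the components, conclusion
on `φ u / u ^ Q`); the component swap turns the quotient into a product: at a crossing point the
sheet invariant `r₁ / r₂ mod n` of `u` is inverted by `ψ`.  The `ψ`-free lemmas of `S35/H433`
(`InLoc` calculus, Lemma N, patching, `localFactor_of_patch`, `exists_eta_smooth`) are reused.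
-/

set_option autoImplicit false
set_option linter.unusedSectionVars false
set_option linter.unusedVariables false

namespace Fermat.Agent.Ribet.H729

open Fermat.Agent.A2 Fermat.Agent.A2.Alg Fermat.Agent.S35.H433

variable {R F : Type*} [CommRing R] [Field F] [Algebra R F]

/-- The standing hypotheses on `ψ`, on one chart: `ψ` preserves the chart, swaps its two
components and is the `Q`-power map on constants modulo `w`. -/
structure SwapCtx (w : R) (B : Subalgebra R F) (c : SSChart w B) (ψ : F ≃+* F) (Q : ℕ) :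
    Prop where
  /-- `ψ` maps the chart into itself -/
  mapB : ∀ b : F, b ∈ B → ψ b ∈ B
  /-- `ψ⁻¹` maps the chart into itself -/
  mapB' : ∀ b : F, ψ b ∈ B → b ∈ B
  /-- `ψ` maps the second component onto the first -/
  map₁₂ : ∀ b : B, (⟨ψ b, mapB b b.2⟩ : B) ∈ c.p₁ ↔ b ∈ c.p₂
  /-- `ψ` maps the first component onto the second -/
  map₂₁ : ∀ b : B, (⟨ψ b, mapB b b.2⟩ : B) ∈ c.p₂ ↔ b ∈ c.p₁
  /-- `ψ` is the `Q`-power map on constants modulo `w` -/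
  frob : ∀ r : R, ∃ s : B, ψ (algebraMap R F r) - algebraMap R F r ^ Q = algebraMap R F w * s

variable {w : R} {B : Subalgebra R F} {c : SSChart w B} {ψ : F ≃+* F} {Q : ℕ}

/-- The restriction of `ψ` to the chart. -/
def SwapCtx.hom (hψ : SwapCtx w B c ψ Q) : B →+* B where
  toFun b := ⟨ψ b, hψ.mapB b b.2⟩
  map_one' := Subtype.ext (by simp)
  map_mul' a b := Subtype.ext (by simp)
  map_zero' := Subtype.ext (by simp)
  map_add' a b := Subtype.ext (by simp)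

@[simp] theorem SwapCtx.coe_hom (hψ : SwapCtx w B c ψ Q) (b : B) :
    ((hψ.hom b : B) : F) = ψ b := rfl

theorem SwapCtx.hom_mem₁ (hψ : SwapCtx w B c ψ Q) (b : B) : hψ.hom b ∈ c.p₁ ↔ b ∈ c.p₂ :=
  hψ.map₁₂ b

theorem SwapCtx.hom_mem₂ (hψ : SwapCtx w B c ψ Q) (b : B) : hψ.hom b ∈ c.p₂ ↔ b ∈ c.p₁ :=
  hψ.map₂₁ b

/-- Transport of `I B_{n'}` to `J B_n` along `ψ`. -/
theorem SwapCtx.inLoc (hψ : SwapCtx w B c ψ Q) {n n' I J : Ideal B}
    (hnn' : ∀ b : B, b ∉ n' → hψ.hom b ∉ n) (hIJ : ∀ b : B, b ∈ I → hψ.hom b ∈ J) {u : F}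
    (h : InLoc B n' I u) : InLoc B n J (ψ u) := by
  obtain ⟨a, b, ha, hb, hab⟩ := h
  refine ⟨hψ.hom a, hψ.hom b, hIJ a ha, hnn' b hb, ?_⟩
  rw [hψ.coe_hom, hψ.coe_hom, ← map_mul, hab]

/-- Transport of units of `B_{n'}` to units of `B_n` along `ψ`. -/
theorem SwapCtx.locUnit (hψ : SwapCtx w B c ψ Q) {n n' : Ideal B}
    (hnn' : ∀ b : B, b ∉ n' → hψ.hom b ∉ n) {u : F} (h : LocUnit B n' u) :
    LocUnit B n (ψ u) := by
  obtain ⟨a, b, ha, hb, hab⟩ := h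
  refine ⟨hψ.hom a, hψ.hom b, hnn' a ha, hnn' b hb, ?_⟩
  rw [hψ.coe_hom, hψ.coe_hom, ← map_mul, hab]

theorem SwapCtx.hom_surjective (hψ : SwapCtx w B c ψ Q) : Function.Surjective hψ.hom := by
  intro b
  refine ⟨⟨ψ.symm b, hψ.mapB' _ (by rw [ψ.apply_symm_apply]; exact b.2)⟩, ?_⟩
  apply Subtype.ext
  rw [hψ.coe_hom]
  exact ψ.apply_symm_apply _

theorem SwapCtx.not_mem_comap (hψ : SwapCtx w B c ψ Q) (n : Ideal B) :
    ∀ b : B, b ∉ n.comap hψ.hom → hψ.hom b ∉ n := fun _ hb => hb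

/-- `w ∈ ψ⁻¹ n` for a closed point `n` of the special fibre. -/
theorem SwapCtx.w_mem_comap (hψ : SwapCtx w B c ψ Q) (hQ : 0 < Q) {n : Ideal B}
    (hwn : algebraMap R B w ∈ n) : algebraMap R B w ∈ n.comap hψ.hom := by
  obtain ⟨s, hs⟩ := hψ.frob w
  have h1 : hψ.hom (algebraMap R B w) = algebraMap R B w ^ Q + algebraMap R B w * s := by
    apply Subtype.ext
    push_cast
    rw [hψ.coe_hom]
    have e1 : ((algebraMap R B w : B) : F) = algebraMap R F w := rfl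
    rw [e1]
    linear_combination hs
  rw [Ideal.mem_comap, h1]
  exact n.add_mem (n.pow_mem_of_mem hwn Q hQ) (n.mul_mem_right _ hwn)

/-! ### the two components -/

/-- `u ≡ 1` on `p'` and on `p`, `ψ` maps `p'` onto `p`  ⟹  `ψ u · u ^ Q ≡ 1` on `p`. -/
theorem SwapCtx.cong_one_of_oneAt (hψ : SwapCtx w B c ψ Q) {p p' : Ideal B} [hp : p.IsPrime]
    [hp' : p'.IsPrime] (hmap : ∀ b : B, hψ.hom b ∈ p ↔ b ∈ p') {u : F}
    (h' : OneAt B p' u) (h : OneAt B p u) : InLoc B p p (ψ u * u ^ Q - 1) := by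
  have hnn : ∀ b : B, b ∉ p' → hψ.hom b ∉ p := fun b hb hb' => hb ((hmap b).1 hb')
  have hII : ∀ b : B, b ∈ p' → hψ.hom b ∈ p := fun b hb => (hmap b).2 hb
  have h1 : InLoc B p p (ψ u - 1) := by
    have := hψ.inLoc hnn hII (oneAt_iff.1 h')
    rwa [map_sub, map_one] at this
  have h2 : InLoc B p p (u - 1) := oneAt_iff.1 h
  have hone : InLoc B p ⊤ (1 : F) := inLoc_one p
  have hu : InLoc B p ⊤ u := inLoc_of_cong hone h2
  have hψu : InLoc B p ⊤ (ψ u) := inLoc_of_cong hone h1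
  have h3 : InLoc B p p (u ^ Q - 1 ^ Q) := cong_pow hu hone h2 Q
  have h4 := cong_mul hψu (hone.pow Q) h1 h3
  rwa [one_pow, one_mul] at h4

/-- `OneAt` is `ConstAt` with the constant `1`. -/
theorem constAt_of_oneAt {p : Ideal B} {u : F} (h : OneAt B p u) : ConstAt B p u := by
  obtain ⟨a, b, hb, hab, hu⟩ := h
  exact ⟨1, isUnit_one, a, b, hb, by simpa using hab, hu⟩

theorem isSplit_of_oneAt {u : F} (h₁ : OneAt B c.p₁ u) (h₂ : OneAt B c.p₂ u) : IsSplit B c u :=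
  ⟨constAt_of_oneAt h₁, constAt_of_oneAt h₂⟩

/-! ### crossing points -/

/-- `ψ` fixes `n` as a set. -/
theorem SwapCtx.mem_of_hom_mem (hψ : SwapCtx w B c ψ Q) {n : Ideal B} (hn : n.IsMaximal)
    (hfix : ∀ b : B, b ∈ n → hψ.hom b ∈ n) (b : B) (h : hψ.hom b ∈ n) : b ∈ n := by
  have hle : n ≤ n.comap hψ.hom := fun x hx => hfix x hx
  have hne : n.comap hψ.hom ≠ ⊤ := (Ideal.comap_isPrime hψ.hom n).ne_top
  have := hn.eq_of_le hne hle
  rw [this]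
  exact h

/-- At a fixed closed point with residue field `R / w`, `ψ b ≡ b ^ Q`. -/
theorem SwapCtx.hom_sub_pow_mem (hψ : SwapCtx w B c ψ Q) {n : Ideal B}
    (hwn : algebraMap R B w ∈ n) (hk : ∀ b : B, ∃ r : R, b - algebraMap R B r ∈ n)
    (hfix : ∀ b : B, b ∈ n → hψ.hom b ∈ n) (a : B) : hψ.hom a - a ^ Q ∈ n := by
  obtain ⟨r, hr⟩ := hk a
  obtain ⟨s, hs⟩ := hψ.frob r
  have h1 : hψ.hom (algebraMap R B r) - algebraMap R B r ^ Q = algebraMap R B w * s := by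
    apply Subtype.ext
    push_cast
    rw [hψ.coe_hom]
    exact hs
  have h2 : a ^ Q - algebraMap R B r ^ Q ∈ n := by
    obtain ⟨t, ht⟩ := sub_dvd_pow_sub_pow a (algebraMap R B r) Q
    rw [ht]
    exact n.mul_mem_right _ hr
  have e : hψ.hom a - a ^ Q = hψ.hom (a - algebraMap R B r) + algebraMap R B w * s
      - (a ^ Q - algebraMap R B r ^ Q) := by
    rw [← h1, map_sub]
    ring
  rw [e]
  exact n.sub_mem (n.add_mem (hfix _ hr) (n.mul_mem_right _ hwn)) h2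

/-- At a fixed closed point, `ψ ρ ≡ ρ ^ Q mod n B_n` for every `ρ ∈ B_n`. -/
theorem SwapCtx.cong_pow_of_fixed (hψ : SwapCtx w B c ψ Q) {n : Ideal B} (hn : n.IsMaximal)
    (hwn : algebraMap R B w ∈ n) (hk : ∀ b : B, ∃ r : R, b - algebraMap R B r ∈ n)
    (hfix : ∀ b : B, b ∈ n → hψ.hom b ∈ n) {ρ : F} (hρ : InLoc B n ⊤ ρ) :
    InLoc B n n (ψ ρ - ρ ^ Q) := by
  have hnp := hn.isPrime
  obtain ⟨a, b, -, hb, hab⟩ := hρ
  have hb0 : (b : F) ≠ 0 := coe_ne_zero_of_not_mem hb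
  have hψb : hψ.hom b ∉ n := fun h => hb (hψ.mem_of_hom_mem hn hfix b h)
  have hψb0 : ψ (b : F) ≠ 0 := (map_ne_zero ψ).2 hb0
  refine ⟨hψ.hom a * b ^ Q - a ^ Q * hψ.hom b, hψ.hom b * b ^ Q, ?_, ?_, ?_⟩
  · have e : hψ.hom a * b ^ Q - a ^ Q * hψ.hom b
        = (hψ.hom a - a ^ Q) * b ^ Q - a ^ Q * (hψ.hom b - b ^ Q) := by ring
    rw [e]
    exact n.sub_mem (n.mul_mem_right _ (hψ.hom_sub_pow_mem hwn hk hfix a))
      (n.mul_mem_left _ (hψ.hom_sub_pow_mem hwn hk hfix b))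
  · intro h
    rcases hnp.mem_or_mem h with h | h
    · exact hψb h
    · exact hb (hnp.mem_of_pow_mem _ h)
  · have hρe : ρ = (a : F) / b := by
      field_simp
      exact hab
    push_cast
    rw [hψ.coe_hom, hψ.coe_hom, hρe, map_div₀, div_pow]
    field_simp

/-- **Lift of the residue on a branch.**  `d ≡ r` on the branch `p` through `n`, for a unit `r`
of `B_n` (normality of `B / p`; the residue of `d ^ m` is that of a unit of `B_n`). -/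
theorem exists_lift {n p : Ideal B} (hn : n.IsMaximal) [hp : p.IsPrime] (hpn : p ≤ n)
    (hnorm : IsIntegrallyClosed (B ⧸ p)) {m : ℕ} (hm : 0 < m) {u d : F}
    (hu : ConstAt B p u) (hd : LocUnit B p d) (hε : LocUnit B n (u * d ^ m)) :
    ∃ r : F, LocUnit B n r ∧ InLoc B p p (d - r) := by
  have hnp := hn.isPrime
  obtain ⟨c₀, hc, huu, hcong⟩ := exists_const_of_constAt hu
  obtain ⟨hu0, hu1, hu2⟩ := locUnit_iff.1 huu
  obtain ⟨hd0, hd1, hd2⟩ := locUnit_iff.1 hd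
  obtain ⟨hε0, hε1, hε2⟩ := locUnit_iff.1 hε
  have hcn : LocUnit B n (algebraMap R F c₀) := locUnit_const hc
  have hcp : LocUnit B p (algebraMap R F c₀) := locUnit_const hc
  obtain ⟨hc0, hc1, hc2⟩ := locUnit_iff.1 hcn
  have hdm0 : d ^ m ≠ 0 := pow_ne_zero _ hd0
  have hinv : InLoc B p p (u⁻¹ - (algebraMap R F c₀)⁻¹) := cong_inv huu hcp hcong
  have h1 : InLoc B p p (d ^ m - (u * d ^ m) * (algebraMap R F c₀)⁻¹) := by
    have e : d ^ m - (u * d ^ m) * (algebraMap R F c₀)⁻¹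
        = (u * d ^ m) * (u⁻¹ - (algebraMap R F c₀)⁻¹) := by
      field_simp
    rw [e]
    exact (hε1.anti hpn).mul hinv
  have h2 : InLoc B p p (d⁻¹ ^ m - algebraMap R F c₀ * (u * d ^ m)⁻¹) := by
    have e : d⁻¹ ^ m - algebraMap R F c₀ * (u * d ^ m)⁻¹
        = (u - algebraMap R F c₀) * (u * d ^ m)⁻¹ := by
      rw [sub_mul, mul_inv, mul_inv_cancel_left₀ hu0, inv_pow]
    rw [e]
    exact hcong.mul' (hε2.anti hpn)
  obtain ⟨r, hr, hr'⟩ := exists_res_of_pow hpn hnorm hm hd1 (hε1.mul hc2) h1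
  obtain ⟨r', hr₂, hr₂'⟩ := exists_res_of_pow hpn hnorm hm hd2 (hc1.mul hε2) h2
  have h3 : InLoc B p p (r * r' - 1) := by
    have := cong_mul (hr.anti hpn) hd2 (cong_symm hr') (cong_symm hr₂')
    rwa [mul_inv_cancel₀ hd0] at this
  have h4 : InLoc B n n (r * r' - 1) := (InLoc.of_le ((hr.mul hr₂).sub (inLoc_one n)) h3).mono hpn
  have h5 : LocUnit B n (r * r') := locUnit_of_cong (locUnit_one n) h4
  have hr0 : r ≠ 0 := left_ne_zero_of_mul (locUnit_ne_zero h5)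
  have hrU : LocUnit B n r := by
    refine locUnit_iff.2 ⟨hr0, hr, ?_⟩
    have e : r⁻¹ = r' * (r * r')⁻¹ := by
      have hr'0 : r' ≠ 0 := right_ne_zero_of_mul (locUnit_ne_zero h5)
      field_simp
    rw [e]
    exact hr₂.mul (locUnit_iff.1 h5).2.2
  exact ⟨r, hrU, hr'⟩

/-- **Crossing point.**  An element `η` of `B_n` with `η ≡ (ψ d · d ^ Q)⁻¹` on both branches. -/
theorem SwapCtx.exists_eta_node (hψ : SwapCtx w B c ψ Q) {n : Ideal B} (hn : n.IsMaximal)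
    (h1n : c.p₁ ≤ n) (h2n : c.p₂ ≤ n)
    (hwn : algebraMap R B w ∈ n) (hk : ∀ b : B, ∃ r : R, b - algebraMap R B r ∈ n)
    (hfix : ∀ b : B, b ∈ n → hψ.hom b ∈ n)
    (htr : ∀ b : B, b ∈ n → ∃ s : B, s ∉ n ∧ s * b ∈ c.p₁ ⊔ c.p₂)
    {m : ℕ} (hm : 0 < m) {u d : F} (hs : IsSplit B c u)
    (hd₁ : LocUnit B c.p₁ d) (hd₂ : LocUnit B c.p₂ d) (hε : LocUnit B n (u * d ^ m)) :
    ∃ η : F, InLoc B n ⊤ η ∧ InLoc B c.p₁ c.p₁ (η - (ψ d * d ^ Q)⁻¹) ∧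
      InLoc B c.p₂ c.p₂ (η - (ψ d * d ^ Q)⁻¹) := by
  have hnp := hn.isPrime
  have hp₁ := c.prime₁
  have hp₂ := c.prime₂
  obtain ⟨r₁, hr₁, hdr₁⟩ := exists_lift hn h1n c.normal₁ hm hs.1 hd₁ hε
  obtain ⟨r₂, hr₂, hdr₂⟩ := exists_lift hn h2n c.normal₂ hm hs.2 hd₂ hε
  -- transport along `ψ`
  have hnn : ∀ b : B, b ∉ n → hψ.hom b ∉ n := fun b hb h => hb (hψ.mem_of_hom_mem hn hfix b h)
  have h21 : ∀ b : B, b ∉ c.p₂ → hψ.hom b ∉ c.p₁ := fun b hb h => hb ((hψ.map₁₂ b).1 h)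
  have h12 : ∀ b : B, b ∉ c.p₁ → hψ.hom b ∉ c.p₂ := fun b hb h => hb ((hψ.map₂₁ b).1 h)
  have hI21 : ∀ b : B, b ∈ c.p₂ → hψ.hom b ∈ c.p₁ := fun b hb => (hψ.map₁₂ b).2 hb
  have hI12 : ∀ b : B, b ∈ c.p₁ → hψ.hom b ∈ c.p₂ := fun b hb => (hψ.map₂₁ b).2 hb
  have hψr₁ : LocUnit B n (ψ r₁) := hψ.locUnit hnn hr₁
  have hψr₂ : LocUnit B n (ψ r₂) := hψ.locUnit hnn hr₂
  have hψd₁ : LocUnit B c.p₁ (ψ d) := hψ.locUnit h21 hd₂
  have hψd₂ : LocUnit B c.p₂ (ψ d) := hψ.locUnit h12 hd₁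
  have hr₁Q : LocUnit B n (r₁ ^ Q) := locUnit_pow hr₁ Q
  have hr₂Q : LocUnit B n (r₂ ^ Q) := locUnit_pow hr₂ Q
  -- the two local values
  have hθ₁ : LocUnit B n (ψ r₂ * r₁ ^ Q) := locUnit_mul hψr₂ hr₁Q
  have hθ₂ : LocUnit B n (ψ r₁ * r₂ ^ Q) := locUnit_mul hψr₁ hr₂Q
  have hδ₁ : LocUnit B c.p₁ (ψ d * d ^ Q) := locUnit_mul hψd₁ (locUnit_pow hd₁ Q)
  have hδ₂ : LocUnit B c.p₂ (ψ d * d ^ Q) := locUnit_mul hψd₂ (locUnit_pow hd₂ Q)
  -- `ψ d · d ^ Q ≡ θ_i` on the branch `p_i`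
  have hc₁ : InLoc B c.p₁ c.p₁ (ψ d * d ^ Q - ψ r₂ * r₁ ^ Q) := by
    have e1 : InLoc B c.p₁ c.p₁ (ψ d - ψ r₂) := by
      rw [← map_sub]
      exact hψ.inLoc h21 hI21 hdr₂
    have e2 : InLoc B c.p₁ c.p₁ (d ^ Q - r₁ ^ Q) :=
      cong_pow (locUnit_iff.1 hd₁).2.1 ((locUnit_iff.1 hr₁).2.1.anti h1n) hdr₁ Q
    exact cong_mul (locUnit_iff.1 hψd₁).2.1 ((locUnit_iff.1 hr₁Q).2.1.anti h1n) e1 e2
  have hc₂ : InLoc B c.p₂ c.p₂ (ψ d * d ^ Q - ψ r₁ * r₂ ^ Q) := by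
    have e1 : InLoc B c.p₂ c.p₂ (ψ d - ψ r₁) := by
      rw [← map_sub]
      exact hψ.inLoc h12 hI12 hdr₁
    have e2 : InLoc B c.p₂ c.p₂ (d ^ Q - r₂ ^ Q) :=
      cong_pow (locUnit_iff.1 hd₂).2.1 ((locUnit_iff.1 hr₂).2.1.anti h2n) hdr₂ Q
    exact cong_mul (locUnit_iff.1 hψd₂).2.1 ((locUnit_iff.1 hr₂Q).2.1.anti h2n) e1 e2
  -- the two local values agree at `n`
  have e₀ : InLoc B n n (ψ r₂ * r₁ ^ Q - ψ r₁ * r₂ ^ Q) := by
    have f₁ := hψ.cong_pow_of_fixed hn hwn hk hfix (locUnit_iff.1 hr₁).2.1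
    have f₂ := hψ.cong_pow_of_fixed hn hwn hk hfix (locUnit_iff.1 hr₂).2.1
    have e : ψ r₂ * r₁ ^ Q - ψ r₁ * r₂ ^ Q
        = (ψ r₂ - r₂ ^ Q) * r₁ ^ Q - (ψ r₁ - r₁ ^ Q) * r₂ ^ Q := by ring
    rw [e]
    exact (f₂.mul' (locUnit_iff.1 hr₁Q).2.1).sub (f₁.mul' (locUnit_iff.1 hr₂Q).2.1)
  have e₃ : InLoc B n n ((ψ r₂ * r₁ ^ Q)⁻¹ - (ψ r₁ * r₂ ^ Q)⁻¹) := cong_inv hθ₁ hθ₂ e₀
  have e₄ : InLoc B n (c.p₁ ⊔ c.p₂) ((ψ r₂ * r₁ ^ Q)⁻¹ - (ψ r₁ * r₂ ^ Q)⁻¹) := by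
    obtain ⟨a, b, ha, hb, hab⟩ := e₃
    obtain ⟨s, hs, hsa⟩ := htr a ha
    refine ⟨s * a, s * b, hsa, fun h => (hnp.mem_or_mem h).elim hs hb, ?_⟩
    push_cast
    rw [← hab]
    ring
  obtain ⟨η, hη, hη₁, hη₂⟩ := exists_patch_node h1n h2n (locUnit_iff.1 hθ₁).2.2 e₄
  refine ⟨η, hη, cong_trans hη₁ (cong_symm ?_), cong_trans hη₂ (cong_symm ?_)⟩
  · exact cong_inv hδ₁ (LocUnit_anti h1n hθ₁) hc₁
  · exact cong_inv hδ₂ (LocUnit_anti h2n hθ₂) hc₂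

/-! ### the theorem -/

/-- **`ψ`-ASM (swap).**  Purity data at `ψ⁻¹ n` and at `n` for `u ≡ 1` on both components
⟹  local factorisation of `ψ u · u ^ Q` at `n`.  At a crossing point `n` one needs: `n` is fixed
by `ψ`, the residue field of `n` is that of `R`, and the two components are transversal at `n`. -/
theorem localFactor_swap_of_pureAt (w : R) (B : Subalgebra R F) (c : SSChart w B)
    (ψ : F ≃+* F) (Q : ℕ) (hψ : SwapCtx w B c ψ Q)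
    (m : ℕ) (hm : 0 < m) (u : F) (hu : u ≠ 0) (h₁ : OneAt B c.p₁ u) (h₂ : OneAt B c.p₂ u)
    (n : Ideal B) (hn : n.IsMaximal) (hwn : algebraMap R B w ∈ n)
    (hk : c.p₁ ≤ n → c.p₂ ≤ n → ∀ b : B, ∃ r : R, b - algebraMap R B r ∈ n)
    (hfix : c.p₁ ≤ n → c.p₂ ≤ n → ∀ b : B, b ∈ n → hψ.hom b ∈ n)
    (htr : c.p₁ ≤ n → c.p₂ ≤ n → ∀ b : B, b ∈ n → ∃ s : B, s ∉ n ∧ s * b ∈ c.p₁ ⊔ c.p₂)
    (h' : PureAt B c m u (n.comap hψ.hom)) (h : PureAt B c m u n) :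
    LocalFactor B c m (ψ u * u ^ Q) n := by
  have hnp := hn.isPrime
  have hp₁ := c.prime₁
  have hp₂ := c.prime₂
  have h21 : ∀ b : B, b ∉ c.p₂ → hψ.hom b ∉ c.p₁ := fun b hb h => hb ((hψ.map₁₂ b).1 h)
  have h12 : ∀ b : B, b ∉ c.p₁ → hψ.hom b ∉ c.p₂ := fun b hb h => hb ((hψ.map₂₁ b).1 h)
  have hv₁ : InLoc B c.p₁ c.p₁ (ψ u * u ^ Q - 1) := hψ.cong_one_of_oneAt hψ.map₁₂ h₂ h₁
  have hv₂ : InLoc B c.p₂ c.p₂ (ψ u * u ^ Q - 1) := hψ.cong_one_of_oneAt hψ.map₂₁ h₁ h₂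
  have hs : IsSplit B c u := isSplit_of_oneAt h₁ h₂
  obtain ⟨d, hd0, hε, hd₁, hd₂⟩ := h
  by_cases h1n : c.p₁ ≤ n
  · by_cases h2n : c.p₂ ≤ n
    · -- crossing point
      have hfix' := hfix h1n h2n
      have hnn : ∀ b : B, b ∉ n → hψ.hom b ∉ n :=
        fun b hb h => hb (hψ.mem_of_hom_mem hn hfix' b h)
      obtain ⟨η, hη, hη₁, hη₂⟩ := hψ.exists_eta_node hn h1n h2n hwn (hk h1n h2n) hfix'
        (htr h1n h2n) hm hs hd₁ hd₂ hε
      have hrel : ψ u * u ^ Q * (ψ d * d ^ Q) ^ m = ψ (u * d ^ m) * (u * d ^ m) ^ Q := by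
        rw [map_mul, map_pow]
        ring
      exact localFactor_of_patch c hrel
        (locUnit_iff.1 (locUnit_mul (hψ.locUnit hnn hε) (locUnit_pow hε Q))).2.1 hη
        (locUnit_mul (hψ.locUnit h21 hd₂) (locUnit_pow hd₁ Q))
        (locUnit_mul (hψ.locUnit h12 hd₁) (locUnit_pow hd₂ Q))
        hv₁ hv₂ hη₁ hη₂
    · -- smooth point on the first component
      obtain ⟨d', hd'0, hε', hd'₁, hd'₂⟩ := h'
      have hδ₁ : LocUnit B c.p₁ (ψ d' * d ^ Q) :=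
        locUnit_mul (hψ.locUnit h21 hd'₂) (locUnit_pow hd₁ Q)
      have hδ₂ : LocUnit B c.p₂ (ψ d' * d ^ Q) :=
        locUnit_mul (hψ.locUnit h12 hd'₁) (locUnit_pow hd₂ Q)
      have hυ : LocUnit B n (ψ (u * d' ^ m) * (u * d ^ m) ^ Q) :=
        locUnit_mul (hψ.locUnit (hψ.not_mem_comap n) hε') (locUnit_pow hε Q)
      have hrel : ψ u * u ^ Q * (ψ d' * d ^ Q) ^ m = ψ (u * d' ^ m) * (u * d ^ m) ^ Q := by
        rw [map_mul, map_pow]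
        ring
      obtain ⟨η, hη, hη₁, hη₂⟩ :=
        exists_eta_smooth h1n h2n c.not_le₁₂ c.normal₁ hm hrel hυ hδ₁ hδ₂ hv₁
      exact localFactor_of_patch c hrel (locUnit_iff.1 hυ).2.1 hη hδ₁ hδ₂ hv₁ hv₂ hη₁ hη₂
  · -- smooth point on the second component
    have h2n : c.p₂ ≤ n := by
      have hle : c.p₁ ⊓ c.p₂ ≤ n := by
        rw [c.inf_eq, Ideal.span_singleton_le_iff_mem]
        exact hwn
      rcases (Ideal.IsPrime.inf_le hnp).1 hle with h | h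
      · exact absurd h h1n
      · exact h
    obtain ⟨d', hd'0, hε', hd'₁, hd'₂⟩ := h'
    have hδ₁ : LocUnit B c.p₁ (ψ d' * d ^ Q) :=
      locUnit_mul (hψ.locUnit h21 hd'₂) (locUnit_pow hd₁ Q)
    have hδ₂ : LocUnit B c.p₂ (ψ d' * d ^ Q) :=
      locUnit_mul (hψ.locUnit h12 hd'₁) (locUnit_pow hd₂ Q)
    have hυ : LocUnit B n (ψ (u * d' ^ m) * (u * d ^ m) ^ Q) :=
      locUnit_mul (hψ.locUnit (hψ.not_mem_comap n) hε') (locUnit_pow hε Q)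
    have hrel : ψ u * u ^ Q * (ψ d' * d ^ Q) ^ m = ψ (u * d' ^ m) * (u * d ^ m) ^ Q := by
      rw [map_mul, map_pow]
      ring
    obtain ⟨η, hη, hη₂, hη₁⟩ :=
      exists_eta_smooth h2n h1n c.not_le₂₁ c.normal₂ hm hrel hυ hδ₂ hδ₁ hv₂
    exact localFactor_of_patch c hrel (locUnit_iff.1 hυ).2.1 hη hδ₁ hδ₂ hv₁ hv₂ hη₁ hη₂

end Fermat.Agent.Ribet.H729
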