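import Fermat.Agent.Ribet.H729.SwapToricVal
import Fermat.Agent.S35.H433.AlgFrob

/-!
# WALL-q / S2q (FROB-AL) — abstract core in the interface shape of `S35/G/SpecLevel.lean`
  (helper729)

`algSwap : AlgSwapStatement` (UNCONDITIONAL).

`AlgSwapStatement` is `S35.H433.AlgFrobStatementU` (= `S35.G.AlgFrobStatement` with unit roots)
with
* the two `SepCoord` hypotheses removed,
* `ψ` mapping `V₁` INTO `V₂` and `V₂` INTO `V₁` (instead of preserving them),
* conclusion `ψ h · h ^ Q = y ^ m` (instead of `ψ h = y ^ m · h ^ Q`).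

So in the mirror of `S35.G.levelFrob_of_parts` for `ψ = w_q ∘ σ` (`V₁ = V∞`, `V₂ = V∞ ∘ W`) it
takes the place of `hALG`, with `MODEL` (`CutBy`), `FROB-RES` and `COORD` unchanged in shape.
Only `CutBy` on the finite chart is used.
-/

set_option autoImplicit false
set_option linter.unusedSectionVars false
set_option linter.unusedVariables false

namespace Fermat.Agent.Ribet.H729

open Fermat.Agent.A2 Fermat.Agent.A2.Alg Fermat.Agent.A2.H348 Fermat.Agent.A2.Alg.H348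
open Fermat.Agent.S35.H433
open Fermat.Agent.S35.G (CutBy NodeStable)

section Phi

variable {R F : Type*} [CommRing R] [Field F] [Algebra R F]

/-- `ψ` maps the component cut out by `V'` into the component cut out by `V`. -/
theorem restrictHom_mem_of_cut_swap {w : R} {B : Subalgebra R F} {p p' : Ideal B}
    (V V' : ValuationSubring F) (hle : ∀ b ∈ B, b ∈ V)
    (hcut : ∀ b : B, b ∈ p ↔ (b : F) * (algebraMap R F w)⁻¹ ∈ V)
    (hcut' : ∀ b : B, b ∈ p' ↔ (b : F) * (algebraMap R F w)⁻¹ ∈ V')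
    (ψ : F ≃+* F) (hψB : ∀ b : F, b ∈ B → ψ b ∈ B) (hψV : ∀ f ∈ V', ψ f ∈ V)
    (t : R) (hψw : ψ (algebraMap R F w) = algebraMap R F w * algebraMap R F t)
    (hw0 : algebraMap R F w ≠ 0) {b : B} (hb : b ∈ p') : restrictHom ψ B hψB b ∈ p := by
  rw [hcut'] at hb
  rw [hcut]
  have h1 := hψV _ hb
  rw [map_mul, map_inv₀, hψw] at h1
  have ht0 : algebraMap R F t ≠ 0 := by
    intro h
    have : ψ (algebraMap R F w) = 0 := by rw [hψw, h, mul_zero]
    exact hw0 ((map_eq_zero_iff ψ ψ.injective).1 this)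
  have e : ((restrictHom ψ B hψB b : B) : F) * (algebraMap R F w)⁻¹
      = ψ b * (algebraMap R F w * algebraMap R F t)⁻¹ * algebraMap R F t := by
    rw [coe_restrictHom]
    field_simp
  rw [e]
  exact V.mul_mem _ _ h1 (hle _ (B.algebraMap_mem t))

/-- `ψ` maps `B_{p'}` onto `B_p` if it preserves `B` and maps `p'` onto `p`. -/
theorem swap_mem_locAt_iff {B : Subalgebra R F} {p p' : Ideal B} [hp : p.IsPrime]
    [hp' : p'.IsPrime] (ψ : F ≃+* F)
    (hψB : ∀ b : F, b ∈ B → ψ b ∈ B) (hψB' : ∀ b : F, ψ b ∈ B → b ∈ B)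
    (hmap : ∀ b : B, restrictHom ψ B hψB b ∈ p ↔ b ∈ p') (z : F) :
    ψ z ∈ locAt B p ↔ z ∈ locAt B p' := by
  constructor
  · rintro ⟨s, hs, hsz⟩
    have hs'B : ψ.symm (s : F) ∈ B := hψB' _ (by rw [ψ.apply_symm_apply]; exact s.2)
    refine ⟨⟨ψ.symm s, hs'B⟩, ?_, ?_⟩
    · intro h
      apply hs
      have := (hmap ⟨ψ.symm s, hs'B⟩).2 h
      have e : restrictHom ψ B hψB ⟨ψ.symm s, hs'B⟩ = s :=
        Subtype.ext (by simp)
      rwa [e] at this
    · apply hψB'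
      show ψ (ψ.symm (s : F) * z) ∈ B
      rw [map_mul, ψ.apply_symm_apply]
      exact hsz
  · rintro ⟨s, hs, hsz⟩
    refine ⟨restrictHom ψ B hψB s, fun h => hs ((hmap s).1 h), ?_⟩
    rw [coe_restrictHom, ← map_mul]
    exact hψB _ hsz

end Phi

section Final

variable {R E F : Type*} [CommRing R] [IsDomain R] [IsDiscreteValuationRing R]
  [Field E] [CharZero E] [Algebra R E] [IsFractionRing R E]
  [Field F] [Algebra E F] [Algebra R F] [IsScalarTower R E F]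

/-- `ψ` maps the component `p'` ONTO the component `p`, if it maps the valuation ring cutting out
`p'` into the one cutting out `p`, and vice versa. -/
theorem restrictHom_mem_iff_of_cut_swap (w : R) (x : F) (B : Subalgebra R F)
    (hB : ChartCtx E w x B)
    {p p' : Ideal B} [hp : p.IsPrime] [hp' : p'.IsPrime]
    (hinf : p ⊓ p' = Ideal.span {algebraMap R B w})
    (hle' : ¬ p' ≤ p) (V V' : ValuationSubring F) (hle : ∀ b ∈ B, b ∈ V)
    (hcut : ∀ b : B, b ∈ p ↔ (b : F) * (algebraMap R F w)⁻¹ ∈ V)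
    (hcut' : ∀ b : B, b ∈ p' ↔ (b : F) * (algebraMap R F w)⁻¹ ∈ V')
    (ψ : F ≃+* F) (ψR : R ≃+* R)
    (hψR : ∀ r : R, ψ (algebraMap R F r) = algebraMap R F (ψR r))
    (hψB : ∀ b : F, b ∈ B → ψ b ∈ B) (hψB' : ∀ b : F, ψ b ∈ B → b ∈ B)
    (hψV : ∀ f ∈ V', ψ f ∈ V) (b : B) : restrictHom ψ B hψB b ∈ p ↔ b ∈ p' := by
  have hw0 : algebraMap R F w ≠ 0 := by
    intro h
    exact hB.hw.ne_zero (H34.algebraMap_RF_injective (R := R) (F := F) E (by rw [h, map_zero]))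
  have hwp' : algebraMap R B w ∈ p' := by
    have : algebraMap R B w ∈ p ⊓ p' := by
      rw [hinf]; exact Ideal.mem_span_singleton_self _
    exact this.2
  -- `ψR` and its inverse preserve the maximal ideal `(w)`
  have hmax : ∀ (e : R ≃+* R), ∃ t : R, e w = w * t := by
    intro e
    have h1 : e w ∈ IsLocalRing.maximalIdeal R := by
      rw [IsLocalRing.mem_maximalIdeal, mem_nonunits_iff]
      intro hu
      apply hB.hw.not_isUnit
      have := hu.map e.symm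
      rwa [RingEquiv.symm_apply_apply] at this
    rw [hB.hw.maximalIdeal_eq, Ideal.mem_span_singleton] at h1
    exact h1
  obtain ⟨t, ht⟩ := hmax ψR
  have hfwd : ∀ b : B, b ∈ p' → restrictHom ψ B hψB b ∈ p := fun b hb =>
    restrictHom_mem_of_cut_swap V V' hle hcut hcut' ψ hψB hψV t (by rw [hψR, ht, map_mul]) hw0 hb
  refine ⟨fun h => ?_, hfwd b⟩
  -- the prime `ψ(p')` contains `w` and is contained in `p`
  have hψsB : ∀ b : F, b ∈ B → ψ.symm b ∈ B := fun b hb =>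
    hψB' _ (by rw [ψ.apply_symm_apply]; exact hb)
  set Q₁ : Ideal B := Ideal.comap (restrictHom ψ.symm B hψsB) p' with hQ₁
  have hQprime : Q₁.IsPrime := Ideal.comap_isPrime _ _
  have hQle : Q₁ ≤ p := by
    intro c hc
    have := hfwd _ hc
    have e : restrictHom ψ B hψB (restrictHom ψ.symm B hψsB c) = c :=
      Subtype.ext (by simp)
    rwa [e] at this
  have hwQ : algebraMap R B w ∈ Q₁ := by
    obtain ⟨t', ht'⟩ := hmax ψR.symm
    rw [hQ₁, Ideal.mem_comap]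
    have e : restrictHom ψ.symm B hψsB (algebraMap R B w)
        = algebraMap R B w * algebraMap R B t' := by
      apply Subtype.ext
      rw [coe_restrictHom]
      show ψ.symm (algebraMap R F w) = algebraMap R F w * algebraMap R F t'
      rw [RingEquiv.symm_apply_eq, map_mul, hψR, hψR, ← map_mul, ← map_mul, ← ht',
        RingEquiv.apply_symm_apply]
    rw [e]
    exact p'.mul_mem_right _ hwp'
  have hinfle : p ⊓ p' ≤ Q₁ := by
    rw [hinf, Ideal.span_singleton_le_iff_mem]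
    exact hwQ
  have hpQ : p ≤ Q₁ := by
    rcases (Ideal.IsPrime.inf_le hQprime).1 hinfle with h' | h'
    · exact h'
    · exact absurd (h'.trans hQle) hle'
  have := hpQ h
  rw [hQ₁, Ideal.mem_comap] at this
  have e : restrictHom ψ.symm B hψsB (restrictHom ψ B hψB b) = b := Subtype.ext (by simp)
  rwa [e] at this

/-- The local rings `W₁ = B_{p₁}`, `W₂ = B_{p₂}` of the two components of the finite chart, in the
swapped setting: they contain `V₁`, `V₂`, satisfy `ValCtx`, and are swapped by `ψ`. -/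
theorem exists_locData_of_cut_swap (w : R) (hw : Irreducible w) (x : F)
    (hx : Transcendental E x)
    (hfin : FiniteDimensional (IntermediateField.adjoin E ({x} : Set F)) F)
    (hconst : ∀ f : F, IsAlgebraic E f → f ∈ (algebraMap E F).range)
    (Bf : Subalgebra R F)
    (hBf : ∀ f : F, f ∈ Bf ↔ IsIntegral (Algebra.adjoin R ({x} : Set F)) f)
    (cf : A2.SSChart w Bf) (V₁ V₂ : ValuationSubring F) (hcutf : CutBy w Bf cf V₁ V₂)
    (ψ : F ≃+* F) (ψR : R ≃+* R)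
    (hψR : ∀ r : R, ψ (algebraMap R F r) = algebraMap R F (ψR r)) (hψx : ψ x = x)
    (hψV₁₂ : ∀ f ∈ V₁, ψ f ∈ V₂) (hψV₂₁ : ∀ f ∈ V₂, ψ f ∈ V₁) :
    ∃ W₁ W₂ : ValuationSubring F, ValCtx w x W₁ ∧ ValCtx w x W₂ ∧ W₁ ≠ W₂ ∧
      (∀ z : F, ψ z ∈ W₁ ↔ z ∈ W₂) ∧ (∀ z : F, ψ z ∈ W₂ ↔ z ∈ W₁) ∧
      (∀ z : F, z ∈ V₁ → z ∈ W₁) ∧ (∀ z : F, z ∈ V₂ → z ∈ W₂) := by
  have hCf : ChartCtx E w x Bf := ⟨hw, hx, hfin, hconst, hBf⟩
  have hpr₁ := cf.prime₁
  have hpr₂ := cf.prime₂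
  have hAB := adjoin_le_of_ctx hCf
  -- `ψ` preserves the chart
  have hψB : ∀ b : F, b ∈ Bf → ψ b ∈ Bf := fun b hb => phi_mem_chart ψ ψR hψR hψx Bf hBf hb
  have hψR' : ∀ r : R, ψ.symm (algebraMap R F r) = algebraMap R F (ψR.symm r) := by
    intro r
    rw [RingEquiv.symm_apply_eq, hψR, RingEquiv.apply_symm_apply]
  have hψx' : ψ.symm x = x := by rw [RingEquiv.symm_apply_eq, hψx]
  have hψB' : ∀ b : F, ψ b ∈ Bf → b ∈ Bf := fun b hb => by
    have := phi_mem_chart ψ.symm ψR.symm hψR' hψx' Bf hBf hb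
    rwa [RingEquiv.symm_apply_apply] at this
  -- the local rings of the two components
  let D₁ := compData₁ hCf cf
  let D₂ := compData₂ hCf cf
  let W₁ : ValuationSubring F := D₁.valuationSubring hAB
  let W₂ : ValuationSubring F := D₂.valuationSubring hAB
  have hW₁ : ValCtx w x W₁ := valCtx_locAt w x Bf hCf D₁
  have hW₂ : ValCtx w x W₂ := valCtx_locAt w x Bf hCf D₂
  have hne : W₁ ≠ W₂ := by
    intro heq
    obtain ⟨t, ht2, ht1⟩ := SetLike.not_le_iff_exists.1 cf.not_le₂₁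
    have h1 : (t : F)⁻¹ ∈ W₁ :=
      ⟨t, ht1, by rw [mul_inv_cancel₀ (coe_ne_zero_of_not_mem ht1)]; exact Bf.one_mem⟩
    rw [heq] at h1
    obtain ⟨s, hs, hst⟩ := h1
    apply hs
    have e : s = ⟨(s : F) * (t : F)⁻¹, hst⟩ * t := by
      apply Subtype.ext
      push_cast
      rw [mul_assoc, inv_mul_cancel₀ (coe_ne_zero_of_not_mem ht1), mul_one]
    rw [e]
    exact cf.p₂.mul_mem_left _ ht2
  have hmap₁ := restrictHom_mem_iff_of_cut_swap w x Bf hCf cf.inf_eq cf.not_le₂₁ V₁ V₂ hcutf.le₁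
    hcutf.cut₁ hcutf.cut₂ ψ ψR hψR hψB hψB' hψV₂₁
  have hmap₂ := restrictHom_mem_iff_of_cut_swap w x Bf hCf (by rw [inf_comm]; exact cf.inf_eq)
    cf.not_le₁₂ V₂ V₁ hcutf.le₂ hcutf.cut₂ hcutf.cut₁ ψ ψR hψR hψB hψB' hψV₁₂
  have hψW₁ : ∀ z : F, ψ z ∈ W₁ ↔ z ∈ W₂ := swap_mem_locAt_iff ψ hψB hψB' hmap₁
  have hψW₂ : ∀ z : F, ψ z ∈ W₂ ↔ z ∈ W₁ := swap_mem_locAt_iff ψ hψB hψB' hmap₂
  have hV₁W₁ : ∀ z : F, z ∈ V₁ → z ∈ W₁ := le_locAt_of_cut D₁ hAB V₁ hcutf.le₁ hcutf.cut₁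
  have hV₂W₂ : ∀ z : F, z ∈ V₂ → z ∈ W₂ := le_locAt_of_cut D₂ hAB V₂ hcutf.le₂ hcutf.cut₂
  exact ⟨W₁, W₂, hW₁, hW₂, hne, hψW₁, hψW₂, hV₁W₁, hV₂W₂⟩

end Final

/-- **ALG-FROB-SWAP (interface statement)**, in the shape of `S35.G.AlgFrobStatement`. -/
def AlgSwapStatement : Prop :=
  ∀ {R E F : Type} [CommRing R] [IsDomain R] [IsDiscreteValuationRing R] [HenselianLocalRing R]
    [IsAlgClosed (IsLocalRing.ResidueField R)]
    [Field E] [CharZero E] [Algebra R E] [IsFractionRing R E]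
    [Field F] [Algebra E F] [Algebra R F] [IsScalarTower R E F]
    (w : R) (_ : Irreducible w) (q m Q : ℕ) (_ : q.Prime)
    (_ : (q : R) ∈ IsLocalRing.maximalIdeal R) (_ : 0 < m) (_ : ¬ q ∣ m)
    (x : F) (_ : Transcendental E x)
    (_ : FiniteDimensional (IntermediateField.adjoin E ({x} : Set F)) F)
    (_ : ∀ f : F, IsAlgebraic E f → f ∈ (algebraMap E F).range)
    (Bf Bi : Subalgebra R F)
    (_ : ∀ f : F, f ∈ Bf ↔ IsIntegral (Algebra.adjoin R ({x} : Set F)) f)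
    (_ : ∀ f : F, f ∈ Bi ↔ IsIntegral (Algebra.adjoin R ({x⁻¹} : Set F)) f)
    (cf : A2.SSChart w Bf) (ci : A2.SSChart w Bi)
    (V₁ V₂ : ValuationSubring F) (_ : CutBy w Bf cf V₁ V₂)
    (ψ : F ≃+* F) (ψE : E ≃+* E) (ψR : R ≃+* R)
    (_ : ∀ e : E, ψ (algebraMap E F e) = algebraMap E F (ψE e))
    (_ : ∀ r : R, ψE (algebraMap R E r) = algebraMap R E (ψR r))
    (_ : ψ x = x)
    (_ : ∀ r : R, ψR r - r ^ Q ∈ IsLocalRing.maximalIdeal R)
    (_ : ∀ f ∈ V₁, ψ f ∈ V₂) (_ : ∀ f ∈ V₂, ψ f ∈ V₁)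
    (_ : NodeStable Bf cf ψ) (_ : NodeStable Bi ci ψ),
    ∀ h : F, h ≠ 0 → A2.DivisibleDiv E m h → PowVU w V₁ m h → PowVU w V₂ m h →
      ∃ y : F, y ≠ 0 ∧ ψ h * h ^ Q = y ^ m

/-- **ALG-FROB-SWAP (unconditional).** -/
theorem algSwap : AlgSwapStatement := by
  intro R E F _ _ _ _ _ _ _ _ _ _ _ _ _ w hw q m Q hq hqR hm hqm x hx hfin hconst Bf Bi hBf hBi
    cf ci V₁ V₂ hcutf ψ ψE ψR hψE hψER hψx hfrob hψV₁₂ hψV₂₁ hnodef hnodei h hh hdiv hp₁ hp₂
  have hψR : ∀ r : R, ψ (algebraMap R F r) = algebraMap R F (ψR r) := by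
    intro r
    rw [IsScalarTower.algebraMap_apply R E F, hψE, hψER, ← IsScalarTower.algebraMap_apply]
  -- `Q > 0`
  have hQ : 0 < Q := by
    rcases Nat.eq_zero_or_pos Q with rfl | hQ
    · exfalso
      have := hfrob 0
      rw [map_zero, pow_zero, zero_sub] at this
      have h1 : (1 : R) ∈ IsLocalRing.maximalIdeal R := by
        have := (IsLocalRing.maximalIdeal R).neg_mem this
        rwa [neg_neg] at this
      exact (IsLocalRing.maximalIdeal.isMaximal R).ne_top ((Ideal.eq_top_iff_one _).2 h1)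
    · exact hQ
  have hfrob' : ∀ r : R, ∃ s : R, ψR r - r ^ Q = w * s := by
    intro r
    have := hfrob r
    rw [hw.maximalIdeal_eq, Ideal.mem_span_singleton] at this
    exact this
  obtain ⟨W₁, W₂, hW₁, hW₂, hne, hψW₁, hψW₂, hV₁W₁, hV₂W₂⟩ :=
    exists_locData_of_cut_swap (E := E) w hw x hx hfin hconst Bf hBf cf V₁ V₂ hcutf ψ ψR hψR hψx
      hψV₁₂ hψV₂₁
  obtain ⟨y, hy, hrel⟩ := swapToricVal w hw q m hq hqR hm hqm x hx hfin hconst Bf Bi hBf hBi
    cf ci W₁ W₂ hW₁ hW₂ hne ψ ψE ψR Q hQ hψE hψER hfrob' hψx hψW₁ hψW₂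
    (fun n hn h1 h2 b hb hb' => hnodef n hn h1 h2 b hb ⟨ψ b, hb'⟩ rfl)
    (fun n hn h1 h2 b hb hb' => hnodei n hn h1 h2 b hb ⟨ψ b, hb'⟩ rfl)
    h hh hdiv (gSplitV_of_powVU hV₁W₁ hW₁.hw hW₁.hR hp₁) (gSplitV_of_powVU hV₂W₂ hW₂.hw hW₂.hR hp₂)
  exact ⟨y, hy, hrel⟩

end Fermat.Agent.Ribet.H729
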