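import Fermat.Agent.Ribet.H729.SwapAsm
import Fermat.Agent.S35.H433.Final
import Fermat.Agent.A2.Top.H96.AlgNoSep

/-!
# WALL-q / S2q (FROB-AL) — abstract core, chart form (helper729)

Setting of the A2 wall (`Fermat/Agent/A2/Alg`): `R` a henselian discrete valuation ring with
algebraically closed residue field of characteristic `q`, `F / E` a function field with
coordinate `x`, `Bf`, `Bi` the two charts, semistable with two components.

`ψ` = a semilinear automorphism of `F` preserving both charts, SWAPPING the two components of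
each, acting on constants as the `Q`-power map modulo `w`, fixing the crossing points.

`swapToric_chart` (UNCONDITIONAL, no `SepCoord`): for `u ≠ 0` with `m ∣ div u` (`q ∤ m`) and
`u ≡ 1` on both components of both charts,  `ψ u · u ^ Q = h ^ m`.

For `ψ = w_q ∘ σ` (`σ` a Frobenius lift at `q`, `Q = q`) this is `Frob_q = - q · w_q` on the split
(toric) classes of `J₀(qM')[m]`: the input FROB-AL of the Mazur principle.

Inputs: purity `A2.Top.H96.purity_noSep` (= `Alg.H609.purity_node` + `Alg.H754.puritySmoothLeaf`)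
and `Alg.H348.glue` (on `Alg.H729.glue_of_hconst`), all on main.
-/

set_option autoImplicit false
set_option linter.unusedSectionVars false
set_option linter.unusedVariables false

namespace Fermat.Agent.Ribet.H729

open Fermat.Agent.A2 Fermat.Agent.A2.Alg Fermat.Agent.S35.H433

section Div

variable {E F : Type*} [Field E] [Field F] [Algebra E F]

theorem divisibleDiv_mul (m : ℕ) (f g : F) (hf : DivisibleDiv E m f) (hg : DivisibleDiv E m g) :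
    DivisibleDiv E m (f * g) := by
  intro V hV hE
  obtain ⟨h, u, hh, hu, hu', rfl⟩ := hf V hV hE
  obtain ⟨h', u', hh', hu₂, hu₂', rfl⟩ := hg V hV hE
  refine ⟨h * h', u * u', mul_ne_zero hh hh', V.mul_mem _ _ hu hu₂, ?_, ?_⟩
  · rw [mul_inv]
    exact V.mul_mem _ _ hu' hu₂'
  · rw [mul_pow]
    ring

end Div

section Parts

variable {R E F : Type*} [CommRing R] [Field E] [Field F] [Algebra E F] [Algebra R F]

/-- Local factorisations of `ψ u · u ^ Q` at all closed points of one chart. -/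
theorem locallyFactored_swap {w : R} (B : Subalgebra R F) (c : SSChart w B)
    (ψ : F ≃+* F) (Q : ℕ) (hQ : 0 < Q) (hψ : SwapCtx w B c ψ Q) (m : ℕ) (hm : 0 < m)
    (hk : ∀ n : Ideal B, n.IsMaximal → c.p₁ ≤ n → c.p₂ ≤ n →
      ∀ b : B, ∃ r : R, b - algebraMap R B r ∈ n)
    (hfix : ∀ n : Ideal B, n.IsMaximal → c.p₁ ≤ n → c.p₂ ≤ n →
      ∀ b : B, b ∈ n → hψ.hom b ∈ n)
    (htr : ∀ n : Ideal B, n.IsMaximal → c.p₁ ≤ n → c.p₂ ≤ n →
      ∀ b : B, b ∈ n → ∃ s : B, s ∉ n ∧ s * b ∈ c.p₁ ⊔ c.p₂)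
    (u : F) (hu : u ≠ 0) (h₁ : OneAt B c.p₁ u) (h₂ : OneAt B c.p₂ u)
    (hpur : ∀ n : Ideal B, n.IsMaximal → algebraMap R B w ∈ n → PureAt B c m u n) :
    LocallyFactored B c m (ψ u * u ^ Q) := by
  intro n hn hwn
  have hn' : (n.comap hψ.hom).IsMaximal :=
    Ideal.comap_isMaximal_of_surjective hψ.hom hψ.hom_surjective
  exact localFactor_swap_of_pureAt w B c ψ Q hψ m hm u hu h₁ h₂ n hn hwn (hk n hn) (hfix n hn)
    (htr n hn) (hpur _ hn' (hψ.w_mem_comap hQ hwn)) (hpur n hn hwn)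

/-- **FROB-AL core, assembled.**  `u ≡ 1` on both components of both charts, `m ∣ div u`
⟹ `ψ u · u ^ Q = h ^ m`. -/
theorem swapToric_of_parts (m : ℕ) (hm : 0 < m) (w : R) (Bf Bi : Subalgebra R F)
    (cf : SSChart w Bf) (ci : SSChart w Bi)
    (ψ : F ≃+* F) (ψE : E ≃+* E) (Q : ℕ) (hQ : 0 < Q)
    (hψE : ∀ e : E, ψ (algebraMap E F e) = algebraMap E F (ψE e))
    (hψf : SwapCtx w Bf cf ψ Q) (hψi : SwapCtx w Bi ci ψ Q)
    (hkf : ∀ n : Ideal Bf, n.IsMaximal → cf.p₁ ≤ n → cf.p₂ ≤ n →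
      ∀ b : Bf, ∃ r : R, b - algebraMap R Bf r ∈ n)
    (hki : ∀ n : Ideal Bi, n.IsMaximal → ci.p₁ ≤ n → ci.p₂ ≤ n →
      ∀ b : Bi, ∃ r : R, b - algebraMap R Bi r ∈ n)
    (hfixf : ∀ n : Ideal Bf, n.IsMaximal → cf.p₁ ≤ n → cf.p₂ ≤ n →
      ∀ b : Bf, b ∈ n → hψf.hom b ∈ n)
    (hfixi : ∀ n : Ideal Bi, n.IsMaximal → ci.p₁ ≤ n → ci.p₂ ≤ n →
      ∀ b : Bi, b ∈ n → hψi.hom b ∈ n)
    (htrf : ∀ n : Ideal Bf, n.IsMaximal → cf.p₁ ≤ n → cf.p₂ ≤ n →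
      ∀ b : Bf, b ∈ n → ∃ s : Bf, s ∉ n ∧ s * b ∈ cf.p₁ ⊔ cf.p₂)
    (htri : ∀ n : Ideal Bi, n.IsMaximal → ci.p₁ ≤ n → ci.p₂ ≤ n →
      ∀ b : Bi, b ∈ n → ∃ s : Bi, s ∉ n ∧ s * b ∈ ci.p₁ ⊔ ci.p₂)
    (u : F) (hu : u ≠ 0) (hdiv : DivisibleDiv E m u)
    (hf₁ : OneAt Bf cf.p₁ u) (hf₂ : OneAt Bf cf.p₂ u)
    (hi₁ : OneAt Bi ci.p₁ u) (hi₂ : OneAt Bi ci.p₂ u)
    (hpurf : ∀ n : Ideal Bf, n.IsMaximal → algebraMap R Bf w ∈ n → PureAt Bf cf m u n)
    (hpuri : ∀ n : Ideal Bi, n.IsMaximal → algebraMap R Bi w ∈ n → PureAt Bi ci m u n)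
    (hglue : ∀ v : F, v ≠ 0 → DivisibleDiv E m v → LocallyFactored Bf cf m v →
      LocallyFactored Bi ci m v → ∃ y : F, y ≠ 0 ∧ v = y ^ m) :
    ∃ h : F, h ≠ 0 ∧ ψ u * u ^ Q = h ^ m := by
  have hψu : ψ u ≠ 0 := (map_ne_zero ψ).2 hu
  have huQ : u ^ Q ≠ 0 := pow_ne_zero _ hu
  have hv : ψ u * u ^ Q ≠ 0 := mul_ne_zero hψu huQ
  have hdivv : DivisibleDiv E m (ψ u * u ^ Q) :=
    divisibleDiv_mul m _ _ (H34.divisibleDiv_tau ψ ψE hψE m u hdiv) (divisibleDiv_pow m u hdiv Q)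
  exact hglue _ hv hdivv
    (locallyFactored_swap Bf cf ψ Q hQ hψf m hm hkf hfixf htrf u hu hf₁ hf₂ hpurf)
    (locallyFactored_swap Bi ci ψ Q hQ hψi m hm hki hfixi htri u hu hi₁ hi₂ hpuri)

end Parts

section Chart

variable {R E F : Type} [CommRing R] [IsDomain R] [IsDiscreteValuationRing R]
  [HenselianLocalRing R] [IsAlgClosed (IsLocalRing.ResidueField R)]
  [Field E] [CharZero E] [Algebra R E] [IsFractionRing R E]
  [Field F] [Algebra E F] [Algebra R F] [IsScalarTower R E F]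

/-- **FROB-AL core, chart form (unconditional).** -/
theorem swapToric_chart
    (w : R) (hw : Irreducible w) (q m : ℕ) (hq : q.Prime)
    (hqR : (q : R) ∈ IsLocalRing.maximalIdeal R) (hm : 0 < m) (hqm : ¬ q ∣ m)
    (x : F) (hx : Transcendental E x)
    (hfin : FiniteDimensional (IntermediateField.adjoin E ({x} : Set F)) F)
    (hconst : ∀ f : F, IsAlgebraic E f → f ∈ (algebraMap E F).range)
    (Bf Bi : Subalgebra R F)
    (hBf : ∀ f : F, f ∈ Bf ↔ IsIntegral (Algebra.adjoin R ({x} : Set F)) f)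
    (hBi : ∀ f : F, f ∈ Bi ↔ IsIntegral (Algebra.adjoin R ({x⁻¹} : Set F)) f)
    (cf : SSChart w Bf) (ci : SSChart w Bi)
    (ψ : F ≃+* F) (ψE : E ≃+* E) (Q : ℕ) (hQ : 0 < Q)
    (hψE : ∀ e : E, ψ (algebraMap E F e) = algebraMap E F (ψE e))
    (hψf : SwapCtx w Bf cf ψ Q) (hψi : SwapCtx w Bi ci ψ Q)
    (hfixf : ∀ n : Ideal Bf, n.IsMaximal → cf.p₁ ≤ n → cf.p₂ ≤ n →
      ∀ b : Bf, b ∈ n → hψf.hom b ∈ n)
    (hfixi : ∀ n : Ideal Bi, n.IsMaximal → ci.p₁ ≤ n → ci.p₂ ≤ n →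
      ∀ b : Bi, b ∈ n → hψi.hom b ∈ n)
    (u : F) (hu : u ≠ 0) (hdiv : DivisibleDiv E m u)
    (hf₁ : OneAt Bf cf.p₁ u) (hf₂ : OneAt Bf cf.p₂ u)
    (hi₁ : OneAt Bi ci.p₁ u) (hi₂ : OneAt Bi ci.p₂ u) :
    ∃ h : F, h ≠ 0 ∧ ψ u * u ^ Q = h ^ m := by
  have hCf : ChartCtx E w x Bf := ⟨hw, hx, hfin, hconst, hBf⟩
  have hCi : ChartCtx E w x⁻¹ Bi := H34.chartCtx_inv w hw x hx hfin hconst Bi hBi
  exact swapToric_of_parts m hm w Bf Bi cf ci ψ ψE Q hQ hψE hψf hψi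
    (fun n hn _ _ b => exists_const_sub_mem w x Bf hCf n hn
      ((Ideal.span_singleton_le_iff_mem (I := n)).1
        (by rw [← cf.inf_eq]; exact inf_le_left.trans ‹cf.p₁ ≤ n›)) b)
    (fun n hn _ _ b => exists_const_sub_mem w x⁻¹ Bi hCi n hn
      ((Ideal.span_singleton_le_iff_mem (I := n)).1
        (by rw [← ci.inf_eq]; exact inf_le_left.trans ‹ci.p₁ ≤ n›)) b)
    hfixf hfixi
    (fun n hn h1 h2 b hb => exists_mul_mem_sup w x Bf hCf cf n hn h1 h2 b hb)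
    (fun n hn h1 h2 b hb => exists_mul_mem_sup w x⁻¹ Bi hCi ci n hn h1 h2 b hb)
    u hu hdiv hf₁ hf₂ hi₁ hi₂
    (fun n hn hwn => Top.H96.purity_noSep q m hq hqR hm hqm w x Bf hCf cf u hu hdiv
      (isSplit_of_oneAt hf₁ hf₂) n hn hwn)
    (fun n hn hwn => Top.H96.purity_noSep q m hq hqR hm hqm w x⁻¹ Bi hCi ci u hu hdiv
      (isSplit_of_oneAt hi₁ hi₂) n hn hwn)
    (fun v hv hdv hf hi => Alg.H348.glue q m hq hqR hm hqm w x Bf Bi hCf hCi cf ci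
      (H34.incomparable_of_ssChart cf) (H34.incomparable_of_ssChart ci) v hv hdv hf hi)

end Chart

end Fermat.Agent.Ribet.H729
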