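import Fermat.Agent.Ribet.H729.SwapToric
import Fermat.Agent.S35.H433.ValForm

/-!
# WALL-q / S2q (FROB-AL) — abstract core, valuation form (helper729)

`swapToricVal : SwapToricValStatement` (UNCONDITIONAL).

`SwapToricValStatement` is `S35.H433.FrobToricValStatement` (helper433) with
* the two `SepCoord` hypotheses removed,
* `ψ` SWAPPING the two valuation rings `V₁`, `V₂` (instead of preserving them),
* conclusion `ψ u · u ^ Q = h ^ m` (instead of `φ u = h ^ m · u ^ Q`).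

`V₁ ≠ V₂` are the two extensions of the Gauss valuation (A2/MOD: `V∞`, `V₀`), `ψ = w_q ∘ σ` with
`σ` a Frobenius lift at `q` and `w_q` the Atkin–Lehner involution (`ψ x = x` for `x = j · j_q`),
`Q = q`; `u` has residues in `kˣ · (κˣ)^m` at `V₁`, `V₂` (`GSplitV`), `m ∣ div u`.
Conclusion in `J₀(qM')[m]`: `Frob_q = - q · w_q` on the split (toric) classes.
-/

set_option autoImplicit false
set_option linter.unusedSectionVars false
set_option linter.unusedVariables false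

namespace Fermat.Agent.Ribet.H729

open Fermat.Agent.A2 Fermat.Agent.A2.Alg Fermat.Agent.S35.H433

section Dict

variable {R F : Type*} [CommRing R] [Field F] [Algebra R F] {B : Subalgebra R F}

/-- `ψ` mapping `V'` onto `V` maps the non-units of `V'` onto those of `V`. -/
theorem swap_mem_nonunits_iff (ψ : F ≃+* F) (V V' : ValuationSubring F)
    (hV : ∀ z : F, ψ z ∈ V ↔ z ∈ V') (z : F) : ψ z ∈ V.nonunits ↔ z ∈ V'.nonunits := by
  rw [ValuationSubring.mem_nonunits_iff_or, ValuationSubring.mem_nonunits_iff_or, ← map_inv₀, hV,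
    map_eq_zero_iff ψ ψ.injective]

theorem oneAt_iff_val {p : Ideal B} {V : ValuationSubring F}
    (h : ∀ z : F, z ∈ V.nonunits ↔ InLoc B p p z) {u : F} :
    OneAt B p u ↔ u - 1 ∈ V.nonunits := by
  rw [oneAt_iff, h]

/-- A component is the contraction of the maximal ideal of its valuation ring. -/
theorem mem_iff_coe_mem_nonunits {p : Ideal B} [hp : p.IsPrime] {V : ValuationSubring F}
    (d : ∀ z : F, z ∈ V.nonunits ↔ InLoc B p p z) (b : B) : b ∈ p ↔ (b : F) ∈ V.nonunits := by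
  rw [d]
  constructor
  · intro hb
    exact inLoc_coe hb
  · rintro ⟨a, s, ha, hs, has⟩
    have h1 : b * s = a := Subtype.ext (by push_cast; exact has)
    have h2 : b * s ∈ p := by rw [h1]; exact ha
    exact (hp.mem_or_mem h2).resolve_right hs

end Dict

section Norm

variable {R F : Type*} [CommRing R] [IsLocalRing R] [IsAlgClosed (IsLocalRing.ResidueField R)]
  [Field F] [Algebra R F] {B : Subalgebra R F}

/-- Every unit of `R` is an `m`-th power modulo the maximal ideal. -/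
theorem exists_unit_pow_sub_mem (m : ℕ) (hm : 0 < m) (c₀ : R) (hc : IsUnit c₀) :
    ∃ e : R, IsUnit e ∧ e ^ m - c₀ ∈ IsLocalRing.maximalIdeal R := by
  obtain ⟨z, hz⟩ := IsAlgClosed.exists_pow_nat_eq (IsLocalRing.residue R c₀) hm
  obtain ⟨e, rfl⟩ := IsLocalRing.residue_surjective z
  have hmem : e ^ m - c₀ ∈ IsLocalRing.maximalIdeal R := by
    rw [← IsLocalRing.residue_eq_zero_iff, map_sub, map_pow, hz, sub_self]
  refine ⟨e, ?_, hmem⟩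
  by_contra he
  have he' : e ∈ IsLocalRing.maximalIdeal R := (IsLocalRing.mem_maximalIdeal e).2 he
  have h1 : e ^ m ∈ IsLocalRing.maximalIdeal R := Ideal.pow_mem_of_mem _ he' m hm
  have h2 : c₀ ∈ IsLocalRing.maximalIdeal R := by
    have : c₀ = e ^ m - (e ^ m - c₀) := by ring
    rw [this]
    exact Ideal.sub_mem _ h1 hmem
  exact (IsLocalRing.mem_maximalIdeal c₀).1 h2 hc

/-- One component: `u ≡ c₀`, `H ≡ e`, `e ^ m ≡ c₀`  ⟹  `u H⁻ᵐ ≡ 1`. -/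
theorem oneAt_div_pow {p : Ideal B} [hp : p.IsPrime]
    (hmax : ∀ r : R, r ∈ IsLocalRing.maximalIdeal R → algebraMap R B r ∈ p) {m : ℕ} {u H : F}
    {c₀ e : R} (he : e ^ m - c₀ ∈ IsLocalRing.maximalIdeal R)
    (hu : InLoc B p p (u - algebraMap R F c₀)) (hH : LocUnit B p H)
    (hHe : InLoc B p p (H - algebraMap R F e)) : OneAt B p (u * (H ^ m)⁻¹) := by
  rw [oneAt_iff]
  obtain ⟨hH0, hH1, hH2⟩ := locUnit_iff.1 hH
  have hHm0 : H ^ m ≠ 0 := pow_ne_zero _ hH0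
  have heB : InLoc B p ⊤ (algebraMap R F e) :=
    inLoc_coe (I := ⊤) (a := algebraMap R B e) trivial
  have h1 : InLoc B p p (H ^ m - algebraMap R F e ^ m) := cong_pow hH1 heB hHe m
  have h2 : InLoc B p p (algebraMap R F e ^ m - algebraMap R F c₀) := by
    have e1 : algebraMap R F e ^ m - algebraMap R F c₀
        = ((algebraMap R B (e ^ m - c₀) : B) : F) := by
      rw [map_sub, map_pow]
      rfl
    rw [e1]
    exact inLoc_coe (hmax _ he)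
  have h3 : InLoc B p p (u - H ^ m) := cong_trans hu (cong_symm (cong_trans h1 h2))
  have e2 : u * (H ^ m)⁻¹ - 1 = (u - H ^ m) * (H ^ m)⁻¹ := by
    rw [sub_mul, mul_inv_cancel₀ hHm0]
  rw [e2]
  have hHmi : InLoc B p ⊤ (H ^ m)⁻¹ := by
    rw [← inv_pow]
    exact hH2.pow m
  exact h3.mul' hHmi

/-- **Normalisation.**  A split class becomes `≡ 1` on both components after division by an
`m`-th power (the residue field of `R` is algebraically closed). -/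
theorem exists_oneAt_of_isSplit {w : R} (c : SSChart w B)
    (hmax : ∀ r : R, r ∈ IsLocalRing.maximalIdeal R → algebraMap R B r ∈ c.p₁ ⊓ c.p₂)
    {m : ℕ} (hm : 0 < m) {u : F} (hs : IsSplit B c u) :
    ∃ H : F, H ≠ 0 ∧ OneAt B c.p₁ (u * (H ^ m)⁻¹) ∧ OneAt B c.p₂ (u * (H ^ m)⁻¹) := by
  have := c.prime₁
  have := c.prime₂
  obtain ⟨c₁, hc₁, -, hu₁⟩ := exists_const_of_constAt hs.1
  obtain ⟨c₂, hc₂, -, hu₂⟩ := exists_const_of_constAt hs.2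
  obtain ⟨e₁, he₁, he₁'⟩ := exists_unit_pow_sub_mem m hm c₁ hc₁
  obtain ⟨e₂, he₂, he₂'⟩ := exists_unit_pow_sub_mem m hm c₂ hc₂
  obtain ⟨H, hH₁, hH₂, hHe₁, hHe₂⟩ := exists_approx c (locUnit_const (p := c.p₁) he₁)
    (locUnit_const (p := c.p₂) he₂)
  exact ⟨H, locUnit_ne_zero hH₁,
    oneAt_div_pow (fun r hr => (hmax r hr).1) he₁' hu₁ hH₁ hHe₁,
    oneAt_div_pow (fun r hr => (hmax r hr).2) he₂' hu₂ hH₂ hHe₂⟩

end Norm

section Main

variable {R E F : Type*} [CommRing R] [IsDomain R] [IsDiscreteValuationRing R]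
  [IsAlgClosed (IsLocalRing.ResidueField R)]
  [Field E] [CharZero E] [Algebra R E] [IsFractionRing R E]
  [Field F] [Algebra E F] [Algebra R F] [IsScalarTower R E F]

/-- `ψ` swaps the components of a chart. -/
theorem swapCtx_of_val (w : R) (x : F) (B : Subalgebra R F) (hB : ChartCtx E w x B)
    (c : SSChart w B) (V₁ V₂ : ValuationSubring F) (h₁ : ValCtx w x V₁) (h₂ : ValCtx w x V₂)
    (hne : V₁ ≠ V₂) (ψ : F ≃+* F) (ψR : R ≃+* R) (Q : ℕ)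
    (hψR : ∀ r : R, ψ (algebraMap R F r) = algebraMap R F (ψR r))
    (hQ : ∀ r : R, ∃ s : R, ψR r - r ^ Q = w * s) (hψx : ψ x = x)
    (hV₁₂ : ∀ z : F, ψ z ∈ V₁ ↔ z ∈ V₂) (hV₂₁ : ∀ z : F, ψ z ∈ V₂ ↔ z ∈ V₁) :
    SwapCtx w B c ψ Q := by
  have hp₁ := c.prime₁
  have hp₂ := c.prime₂
  have hmap : ∀ b : F, b ∈ B → ψ b ∈ B := fun b hb => phi_mem_chart ψ ψR hψR hψx B hB.hB hb
  have hψR' : ∀ r : R, ψ.symm (algebraMap R F r) = algebraMap R F (ψR.symm r) := by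
    intro r
    rw [RingEquiv.symm_apply_eq, hψR, RingEquiv.apply_symm_apply]
  have hψx' : ψ.symm x = x := by
    rw [RingEquiv.symm_apply_eq, hψx]
  have hmap' : ∀ b : F, ψ b ∈ B → b ∈ B := fun b hb => by
    have := phi_mem_chart ψ.symm ψR.symm hψR' hψx' B hB.hB hb
    rwa [RingEquiv.symm_apply_apply] at this
  have key : ∀ (p p' : Ideal B) [p.IsPrime] [p'.IsPrime] (V V' : ValuationSubring F),
      (∀ z : F, ψ z ∈ V ↔ z ∈ V') → (∀ z : F, z ∈ V.nonunits ↔ InLoc B p p z) →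
      (∀ z : F, z ∈ V'.nonunits ↔ InLoc B p' p' z) →
      ∀ b : B, (⟨ψ b, hmap b b.2⟩ : B) ∈ p ↔ b ∈ p' := by
    intro p p' _ _ V V' hV d d' b
    rw [mem_iff_coe_mem_nonunits d, mem_iff_coe_mem_nonunits d']
    exact swap_mem_nonunits_iff ψ V V' hV _
  refine ⟨hmap, hmap', ?_, ?_, ?_⟩
  · rcases exists_dict w x B hB c V₁ V₂ h₁ h₂ hne with ⟨⟨-, d₁⟩, ⟨-, d₂⟩⟩ | ⟨⟨-, d₁⟩, ⟨-, d₂⟩⟩
    · exact key c.p₁ c.p₂ V₁ V₂ hV₁₂ d₁ d₂
    · exact key c.p₁ c.p₂ V₂ V₁ hV₂₁ d₂ d₁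
  · rcases exists_dict w x B hB c V₁ V₂ h₁ h₂ hne with ⟨⟨-, d₁⟩, ⟨-, d₂⟩⟩ | ⟨⟨-, d₁⟩, ⟨-, d₂⟩⟩
    · exact key c.p₂ c.p₁ V₂ V₁ hV₂₁ d₂ d₁
    · exact key c.p₂ c.p₁ V₁ V₂ hV₁₂ d₁ d₂
  · intro r
    obtain ⟨s, hs⟩ := hQ r
    refine ⟨algebraMap R B s, ?_⟩
    rw [hψR, ← map_pow, ← map_sub, hs, map_mul]
    rfl

/-- `≡ 1` at `V₁`, `V₂`  ⟺  `OneAt` on both components of any chart. -/
theorem oneAt_both_iff_val (w : R) (x : F) (B : Subalgebra R F) (hB : ChartCtx E w x B)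
    (c : SSChart w B) (V₁ V₂ : ValuationSubring F) (h₁ : ValCtx w x V₁) (h₂ : ValCtx w x V₂)
    (hne : V₁ ≠ V₂) (u : F) :
    (OneAt B c.p₁ u ∧ OneAt B c.p₂ u) ↔ (u - 1 ∈ V₁.nonunits ∧ u - 1 ∈ V₂.nonunits) := by
  rcases exists_dict w x B hB c V₁ V₂ h₁ h₂ hne with ⟨⟨-, d₁⟩, ⟨-, d₂⟩⟩ | ⟨⟨-, d₁⟩, ⟨-, d₂⟩⟩
  · rw [oneAt_iff_val d₁, oneAt_iff_val d₂]
  · rw [oneAt_iff_val d₂, oneAt_iff_val d₁, and_comm]

end Main

/-- **FROB-AL core (interface statement, valuation language).** -/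
def SwapToricValStatement : Prop :=
  ∀ {R E F : Type} [CommRing R] [IsDomain R] [IsDiscreteValuationRing R] [HenselianLocalRing R]
    [IsAlgClosed (IsLocalRing.ResidueField R)]
    [Field E] [CharZero E] [Algebra R E] [IsFractionRing R E]
    [Field F] [Algebra E F] [Algebra R F] [IsScalarTower R E F]
    (w : R) (_ : Irreducible w) (q m : ℕ) (_ : q.Prime)
    (_ : (q : R) ∈ IsLocalRing.maximalIdeal R) (_ : 0 < m) (_ : ¬ q ∣ m)
    (x : F) (_ : Transcendental E x)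
    (_ : FiniteDimensional (IntermediateField.adjoin E ({x} : Set F)) F)
    (_ : ∀ f : F, IsAlgebraic E f → f ∈ (algebraMap E F).range)
    (Bf Bi : Subalgebra R F)
    (_ : ∀ f : F, f ∈ Bf ↔ IsIntegral (Algebra.adjoin R ({x} : Set F)) f)
    (_ : ∀ f : F, f ∈ Bi ↔ IsIntegral (Algebra.adjoin R ({x⁻¹} : Set F)) f)
    (cf : SSChart w Bf) (ci : SSChart w Bi)
    (V₁ V₂ : ValuationSubring F) (_ : ValCtx w x V₁) (_ : ValCtx w x V₂) (_ : V₁ ≠ V₂)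
    (ψ : F ≃+* F) (ψE : E ≃+* E) (ψR : R ≃+* R) (Q : ℕ) (_ : 0 < Q)
    (_ : ∀ e : E, ψ (algebraMap E F e) = algebraMap E F (ψE e))
    (_ : ∀ r : R, ψE (algebraMap R E r) = algebraMap R E (ψR r))
    (_ : ∀ r : R, ∃ s : R, ψR r - r ^ Q = w * s)
    (_ : ψ x = x)
    (_ : ∀ z : F, ψ z ∈ V₁ ↔ z ∈ V₂) (_ : ∀ z : F, ψ z ∈ V₂ ↔ z ∈ V₁)
    (_ : ∀ n : Ideal Bf, n.IsMaximal → cf.p₁ ≤ n → cf.p₂ ≤ n →
      ∀ b : Bf, b ∈ n → ∀ hb : ψ b ∈ Bf, (⟨ψ b, hb⟩ : Bf) ∈ n)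
    (_ : ∀ n : Ideal Bi, n.IsMaximal → ci.p₁ ≤ n → ci.p₂ ≤ n →
      ∀ b : Bi, b ∈ n → ∀ hb : ψ b ∈ Bi, (⟨ψ b, hb⟩ : Bi) ∈ n)
    (u : F), u ≠ 0 → DivisibleDiv E m u → GSplitV R V₁ m u → GSplitV R V₂ m u →
      ∃ h : F, h ≠ 0 ∧ ψ u * u ^ Q = h ^ m

/-- **FROB-AL core, valuation form (unconditional).** -/
theorem swapToricVal : SwapToricValStatement := by
  intro R E F _ _ _ _ _ _ _ _ _ _ _ _ _ w hw q m hq hqR hm hqm x hx hfin hconst Bf Bi hBf hBi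
    cf ci V₁ V₂ h₁ h₂ hne ψ ψE ψR Q hQ hψE hψER hfrob hψx hV₁₂ hV₂₁ hfixf hfixi u hu hdiv
    hu₁ hu₂
  have hCf : ChartCtx E w x Bf := ⟨hw, hx, hfin, hconst, hBf⟩
  have hCi : ChartCtx E w x⁻¹ Bi := H34.chartCtx_inv w hw x hx hfin hconst Bi hBi
  have hψR : ∀ r : R, ψ (algebraMap R F r) = algebraMap R F (ψR r) := by
    intro r
    rw [IsScalarTower.algebraMap_apply R E F, hψE, hψER, ← IsScalarTower.algebraMap_apply]
  have hψxi : ψ x⁻¹ = x⁻¹ := by rw [map_inv₀, hψx]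
  have hψf : SwapCtx w Bf cf ψ Q :=
    swapCtx_of_val w x Bf hCf cf V₁ V₂ h₁ h₂ hne ψ ψR Q hψR hfrob hψx hV₁₂ hV₂₁
  have hψi : SwapCtx w Bi ci ψ Q :=
    swapCtx_of_val w x⁻¹ Bi hCi ci V₁ V₂ h₁.inv h₂.inv hne ψ ψR Q hψR hfrob hψxi hV₁₂ hV₂₁
  -- normalisation: constants, then `1`
  obtain ⟨G, hG0, hc₁, hc₂⟩ := exists_constV_of_gSplitV w x Bf hCf cf V₁ V₂ h₁ h₂ hne hu₁ hu₂
  have hsf : IsSplit Bf cf (u * (G ^ m)⁻¹) :=
    isSplit_of_constV w x Bf hCf cf V₁ V₂ h₁ h₂ hne hc₁ hc₂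
  have hmaxf : ∀ r : R, r ∈ IsLocalRing.maximalIdeal R → algebraMap R Bf r ∈ cf.p₁ ⊓ cf.p₂ := by
    intro r hr
    rw [hw.maximalIdeal_eq, Ideal.mem_span_singleton] at hr
    obtain ⟨t, rfl⟩ := hr
    rw [cf.inf_eq, map_mul]
    exact Ideal.mul_mem_right _ _ (Ideal.mem_span_singleton_self _)
  obtain ⟨H, hH0, hf₁, hf₂⟩ := exists_oneAt_of_isSplit cf hmaxf hm hsf
  set u' : F := u * (G ^ m)⁻¹ * (H ^ m)⁻¹ with hu'
  have hval := (oneAt_both_iff_val w x Bf hCf cf V₁ V₂ h₁ h₂ hne u').1 ⟨hf₁, hf₂⟩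
  obtain ⟨hi₁, hi₂⟩ := (oneAt_both_iff_val w x⁻¹ Bi hCi ci V₁ V₂ h₁.inv h₂.inv hne u').2 hval
  have hGm : G ^ m ≠ 0 := pow_ne_zero _ hG0
  have hHm : H ^ m ≠ 0 := pow_ne_zero _ hH0
  have hu'0 : u' ≠ 0 := mul_ne_zero (mul_ne_zero hu (inv_ne_zero hGm)) (inv_ne_zero hHm)
  have hdiv' : DivisibleDiv E m u' :=
    divisibleDiv_mul_inv_pow m _ H hH0 (divisibleDiv_mul_inv_pow m u G hG0 hdiv)
  obtain ⟨h, hh, hrel⟩ := swapToric_chart w hw q m hq hqR hm hqm x hx hfin hconst Bf Bi hBf hBi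
    cf ci ψ ψE Q hQ hψE hψf hψi
    (fun n hn h1 h2 b hb => hfixf n hn h1 h2 b hb _)
    (fun n hn h1 h2 b hb => hfixi n hn h1 h2 b hb _)
    u' hu'0 hdiv' hf₁ hf₂ hi₁ hi₂
  have hψG : ψ G ≠ 0 := (map_ne_zero ψ).2 hG0
  have hψH : ψ H ≠ 0 := (map_ne_zero ψ).2 hH0
  refine ⟨h * (ψ G * ψ H * (G * H) ^ Q),
    mul_ne_zero hh (mul_ne_zero (mul_ne_zero hψG hψH) (pow_ne_zero _ (mul_ne_zero hG0 hH0))), ?_⟩
  rw [mul_pow, ← hrel, hu']
  simp only [map_mul, map_inv₀, map_pow, mul_pow, inv_pow]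
  have hψGm : ψ G ^ m ≠ 0 := pow_ne_zero _ hψG
  have hψHm : ψ H ^ m ≠ 0 := pow_ne_zero _ hψH
  have hGmQ : (G ^ m) ^ Q ≠ 0 := pow_ne_zero _ hGm
  have hHmQ : (H ^ m) ^ Q ≠ 0 := pow_ne_zero _ hHm
  have e1 : (G ^ Q) ^ m = (G ^ m) ^ Q := by rw [← pow_mul, ← pow_mul, mul_comm]
  have e2 : (H ^ Q) ^ m = (H ^ m) ^ Q := by rw [← pow_mul, ← pow_mul, mul_comm]
  rw [e1, e2]
  field_simp

end Fermat.Agent.Ribet.H729
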